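/-
PROGRAMME ORD (S33), chapter FAMN (helper3): **families of condition centres on a semistable datum**
— the port of the first part of `FF/FAM/BridgeExact8` (`CondFam`) from `RedDatum` to
`SemiRedDatum9.SemiRedDatum`.

`C : CondFamN 𝔻 α` : centres `C.P a` (`a : α`) in pairwise distinct SMOOTH residue discs
`(C.c a, C.Q a)` with good uniformizers `C.u a ∈ G (C.c a)`.  `C.pt a c` (the place of the `a`-th disc
with coordinate `c ∈ m_A`), the divisors `C.D0 = Σ_a C.P a`, `C.Ediv T = Σ_a C.pt a (T a)` and their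
values on and off the discs; `CondFamN.ofNS S` for a non-special system `S`.
-/
import Mathlib
import Fermat.Agent.ORD.KERN.KerDefs9

set_option autoImplicit false
set_option linter.unusedSectionVars false
set_option linter.style.longLine false

namespace Fermat.Agent.ORD.FAMN.CondN3

open AlgebraicCurve Fermat.Agent.X0.FF Fermat.Agent.RR.LSpace Fermat.Agent.MW.EMB.Value6
open Fermat.Agent.ORD.SEMIRED.SemiRedDatum9 Fermat.Agent.ORD.REDN.DiscC9
open Fermat.Agent.ORD.KERN.KerDefs9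

noncomputable section

open scoped Classical

variable {L F k Ft : Type*} [Field L] [Field F] [Algebra L F] [Field k] [Field Ft] [Algebra k Ft]
variable {ι E : Type*}

/-- a finite family of condition centres in pairwise distinct smooth discs, with good
uniformizers -/
structure CondFamN (𝔻 : SemiRedDatum L F k Ft ι E) (α : Type*) where
  /-- the components carrying the centres -/
  c : α → ι
  /-- the reduced centres -/
  Q : α → Place k Ft
  /-- the centres -/
  P : α → Place L F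
  /-- the good uniformizers -/
  u : ∀ a, 𝔻.G (c a)
  good : ∀ a, (𝔻.comp (c a)).IsGoodUnif (P a) (Q a) (u a)
  inj : Function.Injective fun a => (c a, Q a)

variable {𝔻 : SemiRedDatum L F k Ft ι E} {α : Type*}

namespace CondFamN

variable (C : CondFamN 𝔻 α)

theorem r_P (a : α) : 𝔻.r (C.P a) = Sum.inl (C.c a, C.Q a) :=
  (𝔻.comp_r_eq_some_iff).mp (C.good a).r_eq

/-- the centres are smooth points. -/
theorem isSm_Q (a : α) : 𝔻.IsSm (C.c a) (C.Q a) :=
  (𝔻.comp_sm_iff).mp (C.good a).sm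

/-- the place of the `a`-th disc with coordinate `c` -/
def pt (a : α) (c : mA 𝔻) : Place L F :=
  ((C.good a).exists_valF_eq (c := (c : 𝔻.B.A)) (not_isUnit_of_mA c)).choose

theorem comp_r_pt (a : α) (c : mA 𝔻) : (𝔻.comp (C.c a)).r (C.pt a c) = some (C.Q a) :=
  ((C.good a).exists_valF_eq (c := (c : 𝔻.B.A)) (not_isUnit_of_mA c)).choose_spec.1

theorem r_pt (a : α) (c : mA 𝔻) : 𝔻.r (C.pt a c) = Sum.inl (C.c a, C.Q a) :=
  (𝔻.comp_r_eq_some_iff).mp (C.comp_r_pt a c)

theorem valF_pt (a : α) (c : mA 𝔻) :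
    valF 𝔻.HL (C.pt a c) (C.u a : F) = ((c : 𝔻.B.A) : L) :=
  ((C.good a).exists_valF_eq (c := (c : 𝔻.B.A)) (not_isUnit_of_mA c)).choose_spec.2

theorem ord_u_of_r {a : α} {P' : Place L F} (hP' : 𝔻.r P' = Sum.inl (C.c a, C.Q a)) :
    P'.ord (C.u a : F) = if P' = C.P a then 1 else 0 := by
  split_ifs with h
  · rw [h]; exact (C.good a).ord_self
  · exact (C.good a).ord_of_ne ((𝔻.comp_r_eq_some_iff).mpr hP') h

theorem u_ne_zero (a : α) : (C.u a : F) ≠ 0 :=
  (𝔻.comp (C.c a)).coe_ne_zero_of_red_ne_zero (C.good a).red_ne_zero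

theorem ne_of_ne {a a' : α} (h : a ≠ a') : (C.c a, C.Q a) ≠ (C.c a', C.Q a') :=
  fun h' => h (C.inj h')

variable [Fintype α]

/-- the divisor of the centres -/
def D0 : Divisor L F := ∑ a, Finsupp.single (C.P a) (1 : ℤ)

/-- the divisor of the condition points -/
def Ediv (T : α → mA 𝔻) : Divisor L F := ∑ a, Finsupp.single (C.pt a (T a)) (1 : ℤ)

theorem sum_single_apply_of_r (p : α → Place L F)
    (hp : ∀ a, 𝔻.r (p a) = Sum.inl (C.c a, C.Q a)) {a : α}
    {P' : Place L F} (hP' : 𝔻.r P' = Sum.inl (C.c a, C.Q a)) :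
    (∑ a', Finsupp.single (p a') (1 : ℤ)) P' = if P' = p a then 1 else 0 := by
  rw [Finsupp.finsetSum_apply, Finset.sum_eq_single a]
  · rw [Finsupp.single_apply]
    by_cases h : P' = p a
    · rw [if_pos h, if_pos h.symm]
    · rw [if_neg h, if_neg (fun h' => h h'.symm)]
  · intro a' _ hne
    rw [Finsupp.single_apply, if_neg]
    intro h
    apply hne
    apply C.inj
    have h1 := hp a'
    rw [h, hP'] at h1
    exact (Sum.inl.inj h1).symm
  · intro h; exact absurd (Finset.mem_univ a) h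

theorem sum_single_apply_of_not (p : α → Place L F)
    (hp : ∀ a, 𝔻.r (p a) = Sum.inl (C.c a, C.Q a))
    {P' : Place L F} (hP' : ∀ a, 𝔻.r P' ≠ Sum.inl (C.c a, C.Q a)) :
    (∑ a', Finsupp.single (p a') (1 : ℤ)) P' = 0 := by
  rw [Finsupp.finsetSum_apply]
  refine Finset.sum_eq_zero fun a _ => ?_
  rw [Finsupp.single_apply, if_neg]
  intro h
  exact hP' a (by rw [← h, hp a])

theorem D0_apply_of_r {a : α} {P' : Place L F} (hP' : 𝔻.r P' = Sum.inl (C.c a, C.Q a)) :
    C.D0 P' = if P' = C.P a then 1 else 0 :=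
  C.sum_single_apply_of_r C.P C.r_P hP'

theorem D0_apply_of_not {P' : Place L F} (hP' : ∀ a, 𝔻.r P' ≠ Sum.inl (C.c a, C.Q a)) :
    C.D0 P' = 0 :=
  C.sum_single_apply_of_not C.P C.r_P hP'

theorem Ediv_apply_of_r (T : α → mA 𝔻) {a : α} {P' : Place L F}
    (hP' : 𝔻.r P' = Sum.inl (C.c a, C.Q a)) :
    C.Ediv T P' = if P' = C.pt a (T a) then 1 else 0 :=
  C.sum_single_apply_of_r (fun a => C.pt a (T a)) (fun a => C.r_pt a (T a)) hP'

theorem Ediv_apply_of_not (T : α → mA 𝔻) {P' : Place L F}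
    (hP' : ∀ a, 𝔻.r P' ≠ Sum.inl (C.c a, C.Q a)) :
    C.Ediv T P' = 0 :=
  C.sum_single_apply_of_not (fun a => C.pt a (T a)) (fun a => C.r_pt a (T a)) hP'

theorem D0_apply_P (a : α) : C.D0 (C.P a) = 1 := by
  rw [C.D0_apply_of_r (C.r_P a), if_pos rfl]

theorem D0_nonneg : 0 ≤ C.D0 := by
  intro P
  rw [D0, Finsupp.finsetSum_apply]
  refine Finset.sum_nonneg fun i _ => ?_
  rw [Finsupp.single_apply]
  split_ifs <;> simp

theorem Ediv_nonneg (T : α → mA 𝔻) : 0 ≤ C.Ediv T := by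
  intro P
  rw [Ediv, Finsupp.finsetSum_apply]
  refine Finset.sum_nonneg fun i _ => ?_
  rw [Finsupp.single_apply]
  split_ifs <;> simp

/-- the reduced divisor of the centres -/
def redDiv : Pts ι E k Ft →₀ ℤ := ∑ a, Finsupp.single (Sum.inl (C.c a, C.Q a)) (1 : ℤ)

theorem mapDomain_D0 : Finsupp.mapDomain 𝔻.r C.D0 = C.redDiv := by
  rw [D0, redDiv, Finsupp.mapDomain_finsetSum]
  refine Finset.sum_congr rfl fun a _ => ?_
  rw [Finsupp.mapDomain_single, C.r_P]

theorem mapDomain_Ediv' (T : α → mA 𝔻) : Finsupp.mapDomain 𝔻.r (C.Ediv T) = C.redDiv := by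
  rw [Ediv, redDiv, Finsupp.mapDomain_finsetSum]
  refine Finset.sum_congr rfl fun a _ => ?_
  rw [Finsupp.mapDomain_single, C.r_pt]

theorem mapDomain_Ediv (T : α → mA 𝔻) :
    Finsupp.mapDomain 𝔻.r (C.Ediv T) = Finsupp.mapDomain 𝔻.r C.D0 := by
  rw [C.mapDomain_Ediv', C.mapDomain_D0]

theorem redDiv_apply_Q (a : α) : C.redDiv (Sum.inl (C.c a, C.Q a)) = 1 := by
  rw [redDiv, Finsupp.finsetSum_apply, Finset.sum_eq_single a]
  · simp
  · intro a' _ hne
    rw [Finsupp.single_apply, if_neg]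
    intro h
    exact hne (C.inj (Sum.inl.inj h))
  · intro h; exact absurd (Finset.mem_univ a) h

theorem redDiv_apply_of_ne {x : Pts ι E k Ft} (h : ∀ a, Sum.inl (C.c a, C.Q a) ≠ x) :
    C.redDiv x = 0 := by
  rw [redDiv, Finsupp.finsetSum_apply]
  refine Finset.sum_eq_zero fun a _ => ?_
  rw [Finsupp.single_apply, if_neg (h a)]

theorem redDiv_nonneg : 0 ≤ C.redDiv := by
  intro x
  rw [redDiv, Finsupp.finsetSum_apply]
  refine Finset.sum_nonneg fun i _ => ?_
  rw [Finsupp.single_apply]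
  split_ifs <;> simp

theorem redDiv_apply_of_isBranch {v : ι} {Q' : Place k Ft} (h : 𝔻.IsBranch v Q') :
    C.redDiv (Sum.inl (v, Q')) = 0 := by
  refine C.redDiv_apply_of_ne fun a ha => ?_
  have h1 := Sum.inl.inj ha
  have hv : C.c a = v := congrArg Prod.fst h1
  have hQ : C.Q a = Q' := congrArg Prod.snd h1
  exact C.isSm_Q a (by rw [hv, hQ]; exact h)

theorem offAnn_D0 : OffAnn 𝔻 C.D0 :=
  offAnn_sum _ fun a _ => offAnn_single (C.r_P a) 1

theorem offAnn_Ediv (T : α → mA 𝔻) : OffAnn 𝔻 (C.Ediv T) :=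
  offAnn_sum _ fun a _ => offAnn_single (C.r_pt a (T a)) 1

theorem degree_D0 : Divisor.degree C.D0 = Fintype.card α := by
  rw [D0, map_sum]
  simp [degree_single 𝔻.HL]

theorem degree_Ediv (T : α → mA 𝔻) : Divisor.degree (C.Ediv T) = Fintype.card α := by
  rw [Ediv, map_sum]
  simp [degree_single 𝔻.HL]

/-- a non-special system as a family of condition centres -/
def ofNS {g : ℕ} (S : NSSystemN 𝔻 g) : CondFamN 𝔻 (Fin g) := ⟨S.c, S.Q, S.P, S.u, S.good, S.inj⟩

@[simp] theorem ofNS_D0 {g : ℕ} (S : NSSystemN 𝔻 g) : (ofNS S).D0 = S.D0 := rfl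

@[simp] theorem ofNS_Ediv {g : ℕ} (S : NSSystemN 𝔻 g) (T : Fin g → mA 𝔻) :
    (ofNS S).Ediv T = S.Ediv T := rfl

@[simp] theorem ofNS_pt {g : ℕ} (S : NSSystemN 𝔻 g) (i : Fin g) (c : mA 𝔻) :
    (ofNS S).pt i c = S.pt i c := rfl

@[simp] theorem ofNS_Q {g : ℕ} (S : NSSystemN 𝔻 g) (i : Fin g) : (ofNS S).Q i = S.Q i := rfl

@[simp] theorem ofNS_c {g : ℕ} (S : NSSystemN 𝔻 g) (i : Fin g) : (ofNS S).c i = S.c i := rfl

@[simp] theorem ofNS_P {g : ℕ} (S : NSSystemN 𝔻 g) (i : Fin g) : (ofNS S).P i = S.P i := rfl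

@[simp] theorem ofNS_redDiv {g : ℕ} (S : NSSystemN 𝔻 g) : (ofNS S).redDiv = S.redDiv := rfl

end CondFamN

end

end Fermat.Agent.ORD.FAMN.CondN3
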