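import Mathlib
import Fermat.Agent.ORD.REDN.ExpandC5
import Fermat.Agent.ORD.KERN.KerN9
import Fermat.Agent.ORD.FAMN.CondN3
import Fermat.Agent.FF.FAM.Step8

set_option autoImplicit false
set_option linter.unusedSectionVars false
set_option linter.style.longLine false

/-!
# The exact simple step over a semistable reduction datum

Programme ORD (S33), chapter FAMN (helper6): port of helper8's `FF/FAM/BridgeExact8` from `RedDatum`
to `SemiRedDatum9.SemiRedDatum` (+ helper9's `KerDefs9.NSSystemN`, `KerN9.exists_residual`, helper5's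
`ExpandC5` on the component data `𝔻.comp v`).

`C : CondN3.CondFamN 𝔻 α` (helper3) a finite family of condition centres (pairwise distinct SMOOTH
discs `(c a, Q a)`, good uniformizers on the component `c a`; this file adds the charts `chartC C a`),
wrappers `constG`, `constN`, `evN`, `expandN`, `coefN`, `evN_expansion` with values in `𝔻.B.A` on the
nose (`(𝔻.comp v).A` is `𝔻.B.A` only up to unfolding), `S : NSSystemN 𝔻 g` the residual non-special
system, all discs distinct, `b j` functions integral on EVERY component (`b j ∈ 𝔻.G v` for all `v`) of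
`L(ΣC_a + ΣS.P_q)` whose polar matrix at the `C_a` is invertible over `A`.  For condition points
`c_a` (coordinates `T a ∈ m_A`) we solve the linear system exactly over `A`, obtain the section
`s = 1 + Σ μ_j b_j` (a 1-unit of every Gauss ring) with
`div s = Σ c_a − ΣC_a − ΣS.P_q + E_S(T'')`, and the exact equations satisfied by the coordinates `T''`
of the residual zeros.
-/

namespace Fermat.Agent.ORD.FAMN.BridgeExactN6

open AlgebraicCurve Fermat.Agent.X0.FF Fermat.Agent.RR.LSpace Fermat.Agent.MW.EMB.Value6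
open Fermat.Agent.ORD.SEMIRED.SemiRedDatum9 Fermat.Agent.ORD.REDN.DiscC9
open Fermat.Agent.ORD.REDN.ExpandC5
open Fermat.Agent.ORD.KERN.KerDefs9 Fermat.Agent.ORD.KERN.KerN9 Fermat.Agent.FF.FAM.Step8
open Fermat.Agent.ORD.FAMN.CondN3
open Fermat.Agent.FF.KER.Ker0 (mapDomain_sub')

noncomputable section

open scoped Classical

variable {L F k Ft : Type*} [Field L] [Field F] [Algebra L F] [Field k] [Field Ft] [Algebra k Ft]
variable {ι E : Type*}

/-! ### wrappers: values in `𝔻.B.A`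

`(𝔻.comp v).A` is `𝔻.B.A` only up to unfolding `SemiRedDatum.comp`; the wrappers below have all their
values in `𝔻.B.A` on the nose. -/

section Wrap

variable (𝔻 : SemiRedDatum L F k Ft ι E)

/-- the constant `a ∈ A` as an element of the Gauss ring of the component `v` -/
def constG (v : ι) (a : 𝔻.B.A) : 𝔻.G v := ⟨algebraMap L F (a : L), (𝔻.side v).const_mem a⟩

@[simp] theorem coe_constG (v : ι) (a : 𝔻.B.A) :
    ((constG 𝔻 v a : 𝔻.G v) : F) = algebraMap L F (a : L) := rfl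

theorem red_constG (v : ι) (a : 𝔻.B.A) :
    𝔻.red v (constG 𝔻 v a) = algebraMap k Ft (𝔻.B.res a) := (𝔻.side v).red_const a

/-- constants in the ring of a disc of the component `v` -/
def constN (v : ι) (Q : Place k Ft) : 𝔻.B.A →+* discRing (𝔻.comp v) Q := constR (𝔻.comp v) Q

variable {𝔻}

@[simp] theorem coe_constN (v : ι) (Q : Place k Ft) (a : 𝔻.B.A) :
    ((constN 𝔻 v Q a : discRing (𝔻.comp v) Q) : F) = algebraMap L F (a : L) := rfl

/-- the value at a place of a disc of the component `v`, in `𝔻.B.A` -/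
def evN {v : ι} {Q : Place k Ft} {P : Place L F} (hP : (𝔻.comp v).r P = some Q) :
    discRing (𝔻.comp v) Q →+* 𝔻.B.A := evR hP

@[simp] theorem coe_evN {v : ι} {Q : Place k Ft} {P : Place L F}
    (hP : (𝔻.comp v).r P = some Q) (s : discRing (𝔻.comp v) Q) :
    ((evN hP s : 𝔻.B.A) : L) = valF 𝔻.HL P (s : F) := rfl

theorem evN_constN {v : ι} {Q : Place k Ft} {P : Place L F}
    (hP : (𝔻.comp v).r P = some Q) (a : 𝔻.B.A) : evN hP (constN 𝔻 v Q a) = a :=
  evR_constR hP a

theorem evN_eq_zero_iff {v : ι} {Q : Place k Ft} {P : Place L F}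
    (hP : (𝔻.comp v).r P = some Q) (s : discRing (𝔻.comp v) Q) :
    evN hP s = 0 ↔ (s : F) = 0 ∨ 0 < P.ord (s : F) := evR_eq_zero_iff hP s

theorem res_evN {v : ι} {Q : Place k Ft} {P : Place L F}
    (hP : (𝔻.comp v).r P = some Q) (s : discRing (𝔻.comp v) Q) :
    𝔻.B.res (evN hP s) = val 𝔻.Hk Q (redR ⟨P, hP⟩ s) := res_evR hP s

/-- the expansion in a chart of a disc of the component `v`, with coefficients in `𝔻.B.A` -/
def expandN {v : ι} {Q : Place k Ft} (c : Chart (𝔻.comp v) Q) :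
    discRing (𝔻.comp v) Q →+* PowerSeries 𝔻.B.A := c.expand

theorem expandN_uR {v : ι} {Q : Place k Ft} (c : Chart (𝔻.comp v) Q) :
    expandN c c.uR = PowerSeries.X := c.expand_uR

theorem expandN_constN {v : ι} {Q : Place k Ft} (c : Chart (𝔻.comp v) Q) (a : 𝔻.B.A) :
    expandN c (constN 𝔻 v Q a) = PowerSeries.C a := c.expand_constR a

theorem constantCoeff_expandN {v : ι} {Q : Place k Ft} (c : Chart (𝔻.comp v) Q)
    (s : discRing (𝔻.comp v) Q) :
    PowerSeries.constantCoeff (expandN c s) = evN c.hP s :=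
  c.expDatum.constantCoeff_expand s

/-- the coefficients of the expansion, in `𝔻.B.A` -/
def coefN {v : ι} {Q : Place k Ft} (c : Chart (𝔻.comp v) Q) (n : ℕ)
    (s : discRing (𝔻.comp v) Q) : 𝔻.B.A := c.coef n s

theorem coeff_expandN {v : ι} {Q : Place k Ft} (c : Chart (𝔻.comp v) Q) (n : ℕ)
    (s : discRing (𝔻.comp v) Q) : PowerSeries.coeff n (expandN c s) = coefN c n s :=
  c.coeff_expand n s

/-- exact finite expansions of the values on the disc, with remainder in `A` -/
theorem evN_expansion {v : ι} {Q : Place k Ft} (c : Chart (𝔻.comp v) Q) {P' : Place L F}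
    (hP' : (𝔻.comp v).r P' = some Q) (s : discRing (𝔻.comp v) Q) (m : ℕ) :
    evN hP' s = (∑ n ∈ Finset.range m, coefN c n s * evN hP' c.uR ^ n) +
      evN hP' c.uR ^ m * evN hP' (c.dq^[m] s) :=
  c.evR_expansion hP' s m

end Wrap

variable {𝔻 : SemiRedDatum L F k Ft ι E} {α : Type*}

/-! ### charts of the condition discs (complement to `CondN3`) -/

section Charts

variable (C : CondFamN 𝔻 α)

theorem comp_r_P (a : α) : (𝔻.comp (C.c a)).r (C.P a) = some (C.Q a) := (C.good a).r_eq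

/-- the chart of the `a`-th disc -/
def chartC (a : α) : Chart (𝔻.comp (C.c a)) (C.Q a) := ⟨C.P a, comp_r_P C a, C.u a, C.good a⟩

theorem evN_uR_pt (a : α) (c : mA 𝔻) :
    evN (C.comp_r_pt a c) (chartC C a).uR = (c : 𝔻.B.A) := by
  apply Subtype.ext
  rw [coe_evN]
  exact C.valF_pt a c

end Charts

/-! ### the geometric data of a simple step -/

/-- the geometric data of a simple step, without the polar condition -/
structure StepPreN (𝔻 : SemiRedDatum L F k Ft ι E) (α : Type*) [Fintype α] (g : ℕ) where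
  /-- the condition centres -/
  C : CondFamN 𝔻 α
  /-- the residual non-special system -/
  S : NSSystemN 𝔻 g
  disj : ∀ a i, (C.c a, C.Q a) ≠ (S.c i, S.Q i)
  /-- the functions `b_j` (together with `1`, everywhere integral functions of
  `L(ΣC_a + ΣS.P_q)`) -/
  b : α → F
  b_mem_G : ∀ j v, b j ∈ 𝔻.G v
  b_mem_L : ∀ j, b j ∈ riemannRochSpace (C.D0 + S.D0)

namespace StepPreN

variable [Fintype α] {g : ℕ} (X : StepPreN 𝔻 α g)

/-- the basis functions, with `bb none = 1` -/
def bb (j : Option α) : F := j.elim 1 X.b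

@[simp] theorem bb_none : X.bb none = 1 := rfl

@[simp] theorem bb_some (j : α) : X.bb (some j) = X.b j := rfl

theorem bb_mem_G (j : Option α) (v : ι) : X.bb j ∈ 𝔻.G v := by
  cases j with
  | none => exact (𝔻.G v).one_mem
  | some j => exact X.b_mem_G j v

theorem SD0_nonneg : 0 ≤ X.S.D0 := X.S.D0_nonneg

theorem bb_mem_L (j : Option α) : X.bb j ∈ riemannRochSpace (X.C.D0 + X.S.D0) := by
  cases j with
  | none =>
    rw [bb_none, mem_riemannRochSpace_iff]
    intro v
    right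
    rw [Place.ord_one, Finsupp.add_apply]
    have h1 := X.C.D0_nonneg v
    have h2 := X.SD0_nonneg v
    simp only [Finsupp.coe_zero, Pi.zero_apply] at h1 h2
    omega
  | some j => exact X.b_mem_L j

theorem x_ne_xS (a : α) (q : Fin g) :
    (Sum.inl (X.C.c a, X.C.Q a) : Pts ι E k Ft) ≠ Sum.inl (X.S.c q, X.S.Q q) := fun h =>
  X.disj a q (Sum.inl.inj h)

theorem SD0_apply_of_C {a : α} {P' : Place L F} (hP' : 𝔻.r P' = Sum.inl (X.C.c a, X.C.Q a)) : X.S.D0 P' = 0 := by
  have := (CondFamN.ofNS X.S).D0_apply_of_not (P' := P') (fun i h => X.x_ne_xS a i (by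
    rw [CondFamN.ofNS_c, CondFamN.ofNS_Q] at h
    exact hP'.symm.trans h))
  simpa using this

theorem CD0_apply_of_S {q : Fin g} {P' : Place L F} (hP' : 𝔻.r P' = Sum.inl (X.S.c q, X.S.Q q)) : X.C.D0 P' = 0 :=
  X.C.D0_apply_of_not (fun a h => X.x_ne_xS a q (h.symm.trans hP'))

theorem CEdiv_apply_of_S (T : α → mA 𝔻) {q : Fin g} {P' : Place L F} (hP' : 𝔻.r P' = Sum.inl (X.S.c q, X.S.Q q)) :
    X.C.Ediv T P' = 0 :=
  X.C.Ediv_apply_of_not T (fun a h => X.x_ne_xS a q (h.symm.trans hP'))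

theorem SD0_apply_of_S {q : Fin g} {P' : Place L F} (hP' : 𝔻.r P' = Sum.inl (X.S.c q, X.S.Q q)) :
    X.S.D0 P' = if P' = X.S.P q then 1 else 0 := by
  have := (CondFamN.ofNS X.S).D0_apply_of_r (a := q) (P' := P') hP'
  rw [CondFamN.ofNS_D0] at this
  exact this

theorem ord_uS_of_S {q : Fin g} {P' : Place L F} (hP' : 𝔻.r P' = Sum.inl (X.S.c q, X.S.Q q)) :
    P'.ord (X.S.u q : F) = if P' = X.S.P q then 1 else 0 :=
  (CondFamN.ofNS X.S).ord_u_of_r (a := q) hP'

theorem uS_ne_zero (q : Fin g) : (X.S.u q : F) ≠ 0 := (CondFamN.ofNS X.S).u_ne_zero q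

theorem poleFree_mul_u (a : α) (j : Option α) :
    (𝔻.comp (X.C.c a)).PoleFree (X.bb j * (X.C.u a : F)) (X.C.Q a) := by
  intro P' hP'c
  have hP' : 𝔻.r P' = Sum.inl (X.C.c a, X.C.Q a) := (𝔻.comp_r_eq_some_iff).mp hP'c
  by_cases h0 : X.bb j = 0
  · rw [h0, zero_mul, Place.ord_zero]
  have hL := (mem_L_iff h0).mp (X.bb_mem_L j) P'
  rw [P'.ord_mul h0 (X.C.u_ne_zero a), X.C.ord_u_of_r hP']
  rw [Finsupp.add_apply, X.C.D0_apply_of_r hP', X.SD0_apply_of_C hP'] at hL
  split_ifs at hL ⊢ <;> omega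

theorem poleFree_mul_uS (q : Fin g) (j : Option α) :
    (𝔻.comp (X.S.c q)).PoleFree (X.bb j * (X.S.u q : F)) (X.S.Q q) := by
  intro P' hP'c
  have hP' : 𝔻.r P' = Sum.inl (X.S.c q, X.S.Q q) := (𝔻.comp_r_eq_some_iff).mp hP'c
  by_cases h0 : X.bb j = 0
  · rw [h0, zero_mul, Place.ord_zero]
  have hL := (mem_L_iff h0).mp (X.bb_mem_L j) P'
  rw [P'.ord_mul h0 (X.uS_ne_zero q), X.ord_uS_of_S hP']
  rw [Finsupp.add_apply, X.CD0_apply_of_S hP', X.SD0_apply_of_S hP'] at hL
  split_ifs at hL ⊢ <;> omega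

/-- `b_j · u_a` as an element of the ring of the `a`-th condition disc -/
def hC (a : α) (j : Option α) : discRing (𝔻.comp (X.C.c a)) (X.C.Q a) :=
  ⟨X.bb j * (X.C.u a : F), (𝔻.G (X.C.c a)).mul_mem (X.bb_mem_G j _) (X.C.u a).2,
    X.poleFree_mul_u a j⟩

/-- `b_j · u_q` as an element of the ring of the `q`-th residual disc -/
def hS (q : Fin g) (j : Option α) : discRing (𝔻.comp (X.S.c q)) (X.S.Q q) :=
  ⟨X.bb j * (X.S.u q : F), (𝔻.G (X.S.c q)).mul_mem (X.bb_mem_G j _) (X.S.u q).2,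
    X.poleFree_mul_uS q j⟩

@[simp] theorem coe_hC (a : α) (j : Option α) :
    ((X.hC a j : discRing (𝔻.comp (X.C.c a)) (X.C.Q a)) : F) = X.bb j * (X.C.u a : F) := rfl

@[simp] theorem coe_hS (q : Fin g) (j : Option α) :
    ((X.hS q j : discRing (𝔻.comp (X.S.c q)) (X.S.Q q)) : F) = X.bb j * (X.S.u q : F) := rfl

theorem hC_none (a : α) : X.hC a none = (chartC X.C a).uR := by
  apply Subtype.ext
  show X.bb none * (X.C.u a : F) = (X.C.u a : F)
  rw [bb_none, one_mul]

/-- the chart of the `q`-th residual disc -/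
def chartS (q : Fin g) : Chart (𝔻.comp (X.S.c q)) (X.S.Q q) :=
  ⟨X.S.P q, (X.S.good q).r_eq, X.S.u q, X.S.good q⟩

theorem hS_none (q : Fin g) : X.hS q none = (X.chartS q).uR := by
  apply Subtype.ext
  show X.bb none * (X.S.u q : F) = (X.S.u q : F)
  rw [bb_none, one_mul]

variable [DecidableEq α]

/-- the polar matrix: leading polar coefficients of the `b_j` at the condition centres -/
def polar : Matrix α α 𝔻.B.A :=
  Matrix.of fun a j => evN (chartC X.C a).hP (X.hC a (some j))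

/-- the exact linear system at the condition points with coordinates `T` -/
def cT (T : α → mA 𝔻) (a : α) (j : Option α) : 𝔻.B.A := evN (X.C.comp_r_pt a (T a)) (X.hC a j)

theorem cT_none (T : α → mA 𝔻) (a : α) : X.cT T a none = (T a : 𝔻.B.A) := by
  rw [cT, hC_none, evN_uR_pt X.C]

theorem res_cT (T : α → mA 𝔻) (a : α) (j : α) :
    𝔻.B.res (X.cT T a (some j)) = 𝔻.B.res (X.polar a j) := by
  have h1 := res_evN (X.C.comp_r_pt a (T a)) (X.hC a (some j))
  have h2 := res_evN (chartC X.C a).hP (X.hC a (some j))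
  rw [cT, polar, Matrix.of_apply]
  exact h1.trans h2.symm

theorem isUnit_det_minor_cT (hpolar : IsUnit X.polar.det) (T : α → mA 𝔻) :
    IsUnit (minor (X.cT T)).det := by
  have h1 : 𝔻.B.res.mapMatrix (minor (X.cT T)) = 𝔻.B.res.mapMatrix X.polar := by
    ext a j
    simp only [RingHom.mapMatrix_apply, Matrix.map_apply, minor, Matrix.of_apply]
    exact X.res_cT T a j
  by_contra hnu
  have h2 : 𝔻.B.res (minor (X.cT T)).det = 0 := (𝔻.B.res_eq_zero_iff _).mpr hnu
  rw [RingHom.map_det, h1, ← RingHom.map_det] at h2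
  exact (𝔻.B.res_eq_zero_iff _).mp h2 hpolar

/-- the exact Cramer coefficients -/
def mu (T : α → mA 𝔻) : Option α → 𝔻.B.A := solve (X.cT T)

@[simp] theorem mu_none (T : α → mA 𝔻) : X.mu T none = 1 := rfl

theorem mu_spec (hpolar : IsUnit X.polar.det) (T : α → mA 𝔻) (a : α) :
    ∑ j, X.mu T j * X.cT T a j = 0 :=
  solve_spec _ (X.isUnit_det_minor_cT hpolar T) a

theorem mu_some_mem (T : α → mA 𝔻) (j : α) :
    X.mu T (some j) ∈ IsLocalRing.maximalIdeal 𝔻.B.A :=
  solve_some_mem _ _ (fun a => by rw [X.cT_none]; exact (T a).2) j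

/-- the section `s = Σ μ_j b_j` -/
def sec (T : α → mA 𝔻) : F := ∑ j, algebraMap L F (X.mu T j : L) * X.bb j

theorem sec_mem_L (T : α → mA 𝔻) : X.sec T ∈ riemannRochSpace (X.C.D0 + X.S.D0) := by
  refine Submodule.sum_mem _ fun j _ => ?_
  rw [← Algebra.smul_def]
  exact Submodule.smul_mem _ _ (X.bb_mem_L j)

theorem sec_mem_G (T : α → mA 𝔻) (v : ι) : X.sec T ∈ 𝔻.G v :=
  (𝔻.G v).sum_mem fun j _ => (𝔻.G v).mul_mem ((𝔻.side v).const_mem _) (X.bb_mem_G j v)

/-- the section is a `1`-unit of every Gauss ring -/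
theorem red_sec (T : α → mA 𝔻) (v : ι) : 𝔻.red v ⟨X.sec T, X.sec_mem_G T v⟩ = 1 := by
  have h1 : (⟨X.sec T, X.sec_mem_G T v⟩ : 𝔻.G v) =
      ∑ j, constG 𝔻 v (X.mu T j) * ⟨X.bb j, X.bb_mem_G j v⟩ := by
    apply Subtype.ext
    rw [AddSubmonoidClass.coe_finsetSum]
    rfl
  rw [h1, map_sum, Fintype.sum_option]
  have h2 : ∀ j : α, 𝔻.red v (constG 𝔻 v (X.mu T (some j)) *
      ⟨X.bb (some j), X.bb_mem_G (some j) v⟩) = 0 := by
    intro j
    rw [map_mul, red_constG]
    have : 𝔻.B.res (X.mu T (some j)) = 0 := by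
      rw [𝔻.B.res_eq_zero_iff]
      have := X.mu_some_mem T j
      rwa [IsLocalRing.mem_maximalIdeal, mem_nonunits_iff] at this
    rw [this, map_zero, zero_mul]
  rw [Finset.sum_eq_zero (fun j _ => h2 j), add_zero, map_mul, red_constG, mu_none, map_one,
    map_one, one_mul]
  have : (⟨X.bb none, X.bb_mem_G none v⟩ : 𝔻.G v) = 1 := Subtype.ext rfl
  rw [this, map_one]

theorem sec_ne_zero (T : α → mA 𝔻) : X.sec T ≠ 0 := by
  intro h0
  have h1 := X.red_sec T X.S.c0
  have : (⟨X.sec T, X.sec_mem_G T X.S.c0⟩ : 𝔻.G X.S.c0) = 0 := Subtype.ext h0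
  rw [this, map_zero] at h1
  exact zero_ne_one h1

/-- `s · u_a` in the ring of the `a`-th condition disc -/
theorem sec_mul_u_eq (T : α → mA 𝔻) (a : α) :
    X.sec T * (X.C.u a : F) =
      ((∑ j, constN 𝔻 (X.C.c a) (X.C.Q a) (X.mu T j) * X.hC a j :
        discRing (𝔻.comp (X.C.c a)) (X.C.Q a)) : F) := by
  rw [AddSubmonoidClass.coe_finsetSum, sec, Finset.sum_mul]
  refine Finset.sum_congr rfl fun j _ => ?_
  rw [Subring.coe_mul, coe_constN, coe_hC, mul_assoc]

theorem sec_mul_uS_eq (T : α → mA 𝔻) (q : Fin g) :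
    X.sec T * (X.S.u q : F) =
      ((∑ j, constN 𝔻 (X.S.c q) (X.S.Q q) (X.mu T j) * X.hS q j :
        discRing (𝔻.comp (X.S.c q)) (X.S.Q q)) : F) := by
  rw [AddSubmonoidClass.coe_finsetSum, sec, Finset.sum_mul]
  refine Finset.sum_congr rfl fun j _ => ?_
  rw [Subring.coe_mul, coe_constN, coe_hS, mul_assoc]

theorem evN_sum_C (T : α → mA 𝔻) (a : α) {P' : Place L F}
    (hP' : (𝔻.comp (X.C.c a)).r P' = some (X.C.Q a)) :
    evN hP' (∑ j, constN 𝔻 (X.C.c a) (X.C.Q a) (X.mu T j) * X.hC a j) =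
      ∑ j, X.mu T j * evN hP' (X.hC a j) := by
  rw [map_sum]
  refine Finset.sum_congr rfl fun j _ => ?_
  rw [map_mul, evN_constN]

theorem evN_sum_S (T : α → mA 𝔻) (q : Fin g) {P' : Place L F}
    (hP' : (𝔻.comp (X.S.c q)).r P' = some (X.S.Q q)) :
    evN hP' (∑ j, constN 𝔻 (X.S.c q) (X.S.Q q) (X.mu T j) * X.hS q j) =
      ∑ j, X.mu T j * evN hP' (X.hS q j) := by
  rw [map_sum]
  refine Finset.sum_congr rfl fun j _ => ?_
  rw [map_mul, evN_constN]

/-- the section vanishes at the condition points -/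
theorem ord_sec_pt (hpolar : IsUnit X.polar.det) (T : α → mA 𝔻) (a : α) :
    0 < (X.C.pt a (T a)).ord (X.sec T) +
      (if X.C.pt a (T a) = X.C.P a then 1 else 0) := by
  have h0 : evN (X.C.comp_r_pt a (T a))
      (∑ j, constN 𝔻 (X.C.c a) (X.C.Q a) (X.mu T j) * X.hC a j) = 0 := by
    rw [X.evN_sum_C T a]
    exact X.mu_spec hpolar T a
  rw [evN_eq_zero_iff, ← X.sec_mul_u_eq T a] at h0
  rcases h0 with h0 | h0
  · exact absurd h0 (mul_ne_zero (X.sec_ne_zero T) (X.C.u_ne_zero a))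
  · rwa [Place.ord_mul _ (X.sec_ne_zero T) (X.C.u_ne_zero a),
      X.C.ord_u_of_r (X.C.r_pt a (T a))] at h0

/-- the divisor of conditions `Σ c_a − ΣC_a − ΣS.P_q` -/
def Bdiv (T : α → mA 𝔻) : Divisor L F := X.C.Ediv T - X.C.D0 - X.S.D0

theorem offAnn_Bdiv (T : α → mA 𝔻) : OffAnn 𝔻 (X.Bdiv T) :=
  ((X.C.offAnn_Ediv T).sub X.C.offAnn_D0).sub X.S.offAnn_D0

theorem Bdiv_le_ord (hpolar : IsUnit X.polar.det) (T : α → mA 𝔻) (P : Place L F) :
    X.Bdiv T P ≤ P.ord (X.sec T) := by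
  have hL := (mem_L_iff (X.sec_ne_zero T)).mp (X.sec_mem_L T) P
  rw [Finsupp.add_apply] at hL
  rw [Bdiv, Finsupp.sub_apply, Finsupp.sub_apply]
  by_cases hex : ∃ a, 𝔻.r P = Sum.inl (X.C.c a, X.C.Q a)
  · obtain ⟨a, ha⟩ := hex
    rw [X.C.Ediv_apply_of_r T ha, X.C.D0_apply_of_r ha, X.SD0_apply_of_C ha]
    rw [X.C.D0_apply_of_r ha, X.SD0_apply_of_C ha] at hL
    by_cases hPc : P = X.C.pt a (T a)
    · have h1 := X.ord_sec_pt hpolar T a
      rw [← hPc] at h1
      rw [if_pos hPc]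
      split_ifs at h1 hL ⊢ <;> omega
    · rw [if_neg hPc]
      split_ifs at hL ⊢ <;> omega
  · push Not at hex
    rw [X.C.Ediv_apply_of_not T hex, X.C.D0_apply_of_not hex]
    rw [X.C.D0_apply_of_not hex] at hL
    omega

theorem mapDomain_Bdiv (T : α → mA 𝔻) :
    Finsupp.mapDomain 𝔻.r (X.Bdiv T) = -X.S.redDiv := by
  rw [Bdiv, mapDomain_sub', mapDomain_sub', X.C.mapDomain_Ediv, X.S.mapDomain_D0, sub_self,
    zero_sub]

/-- **The exact simple step.**  The section `s` has divisor `Bdiv T + E_S(T'')`, and the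
coordinates `T''` of its residual zeros satisfy the exact equations
`Σ_j μ_j · (b_j u_q)(z_q) = 0`. -/
theorem exact_step [Finite ι] [Nonempty ι] (hpolar : IsUnit X.polar.det) (T : α → mA 𝔻) :
    ∃ T'' : Fin g → mA 𝔻,
      (∀ P : Place L F, P.ord (X.sec T) = X.Bdiv T P + X.S.Ediv T'' P) ∧
      ∀ q, ∑ j, X.mu T j * evN (X.S.comp_r_pt q (T'' q)) (X.hS q j) = 0 := by
  obtain ⟨T'', hT''⟩ := exists_residual X.S (X.Bdiv T) (X.offAnn_Bdiv T) (X.mapDomain_Bdiv T)
    (X.sec_ne_zero T) (X.Bdiv_le_ord hpolar T)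
  refine ⟨T'', hT'', fun q => ?_⟩
  have hz : 𝔻.r (X.S.pt q (T'' q)) = Sum.inl (X.S.c q, X.S.Q q) := X.S.r_pt q (T'' q)
  rw [← X.evN_sum_S T q (X.S.comp_r_pt q (T'' q)), evN_eq_zero_iff]
  right
  rw [← X.sec_mul_uS_eq T q, Place.ord_mul _ (X.sec_ne_zero T) (X.uS_ne_zero q), hT'',
    X.ord_uS_of_S hz, Bdiv, Finsupp.sub_apply, Finsupp.sub_apply, X.CEdiv_apply_of_S T hz,
    X.CD0_apply_of_S hz, X.SD0_apply_of_S hz, X.S.Ediv_apply_pt]
  split_ifs <;> omega

/-- the expansions of the `b_j u_a` at the condition discs -/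
def expC (a : α) (j : Option α) : PowerSeries 𝔻.B.A := expandN (chartC X.C a) (X.hC a j)

/-- the expansions of the `b_j u_q` at the residual discs -/
def expS (q : Fin g) (j : Option α) : PowerSeries 𝔻.B.A := expandN (X.chartS q) (X.hS q j)

theorem expC_none (a : α) : X.expC a none = PowerSeries.X := by
  rw [expC, hC_none, expandN_uR]

theorem expS_none (q : Fin g) : X.expS q none = PowerSeries.X := by
  rw [expS, hS_none, expandN_uR]

theorem constantCoeff_expC (a : α) (j : Option α) :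
    PowerSeries.constantCoeff (X.expC a j) = evN (chartC X.C a).hP (X.hC a j) :=
  constantCoeff_expandN (chartC X.C a) (X.hC a j)

/-- **the formal step data of the geometric step** (coefficients in `A`). -/
def stepData (hpolar : IsUnit X.polar.det) : StepData 𝔻.B.A α (Fin g) where
  e := X.expC
  res := X.expS
  e_zero a := by rw [expC_none, PowerSeries.constantCoeff_X]
  det_unit := by
    have h : (Matrix.of fun a j : α => PowerSeries.constantCoeff (X.expC a (some j))) =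
        X.polar := by
      ext a j
      rw [Matrix.of_apply, constantCoeff_expC]
      rfl
    rw [h]
    exact hpolar
  res_zero q := by rw [expS_none, PowerSeries.constantCoeff_X]
  res_one q := by rw [expS_none, PowerSeries.coeff_one_X]; exact isUnit_one

end StepPreN

end

end Fermat.Agent.ORD.FAMN.BridgeExactN6
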