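import Mathlib
import Fermat.Agent.ORD.FAMN.BridgeExactN6

set_option autoImplicit false
set_option linter.unusedSectionVars false
set_option linter.style.longLine false

/-!
# The exact chains on a semistable datum: transition and sum

Programme ORD (S33), chapter FAMN (helper6): port of helper8's `FF/FAM/Chain8` to
`SemiRedDatum9.SemiRedDatum` (on `CondN3.CondFamN`, `BridgeExactN6.StepPreN`, `KerDefs9.NSSystemN`).

Three non-special systems `S0, S0', S1` with pairwise distinct discs and four polar families.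
* transition `S0 → S0'`: step A (conditions at `S0`, residual `S1`, lattice `L(D0 + D1)`), then
  step B (conditions at `S1`, residual `S0'`, lattice `L(D1 + D0')`): `kap0' T'' = kap0 T'`;
* sum: step C (conditions at `S0 ⊔ S0'`, residual `S1`, lattice `L(D0 + D0' + D1)`), then step D
  (conditions at `S1`, residual `S0`, lattice `L(D1 + D0)`): `kap0 T''' = kap0 T + kap0' T''`.
-/

namespace Fermat.Agent.ORD.FAMN.ChainN6

open AlgebraicCurve Fermat.Agent.X0.FF Fermat.Agent.RR.LSpace Fermat.Agent.MW.EMB.Value6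
open Fermat.Agent.ORD.SEMIRED.SemiRedDatum9 Fermat.Agent.ORD.REDN.DiscC9
open Fermat.Agent.ORD.REDN.ExpandC5
open Fermat.Agent.ORD.KERN.KerDefs9 Fermat.Agent.ORD.KERN.KerN9 Fermat.Agent.FF.FAM.Step8
open Fermat.Agent.ORD.FAMN.CondN3 Fermat.Agent.ORD.FAMN.BridgeExactN6

noncomputable section

open scoped Classical

variable {L F k Ft : Type*} [Field L] [Field F] [Algebra L F] [Field k] [Field Ft] [Algebra k Ft]
variable {ι E : Type*} {𝔻 : SemiRedDatum L F k Ft ι E}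

/-- disjoint union of two families of condition centres -/
def sumFam {α α' : Type*} (C : CondFamN 𝔻 α) (C' : CondFamN 𝔻 α')
    (h : ∀ a a', (C.c a, C.Q a) ≠ (C'.c a', C'.Q a')) : CondFamN 𝔻 (α ⊕ α') where
  c := Sum.elim C.c C'.c
  Q := Sum.elim C.Q C'.Q
  P := Sum.elim C.P C'.P
  u := fun x => match x with
    | Sum.inl a => C.u a
    | Sum.inr a => C'.u a
  good := fun x => match x with
    | Sum.inl a => C.good a
    | Sum.inr a => C'.good a
  inj := by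
    rintro (a | a) (b | b) hab
    · exact congrArg Sum.inl (C.inj hab)
    · exact absurd hab (h a b)
    · exact absurd hab.symm (h b a)
    · exact congrArg Sum.inr (C'.inj hab)

section sumFam

variable {α α' : Type*} [Fintype α] [Fintype α'] (C : CondFamN 𝔻 α) (C' : CondFamN 𝔻 α')
  (h : ∀ a a', (C.c a, C.Q a) ≠ (C'.c a', C'.Q a'))

theorem sumFam_D0 : (sumFam C C' h).D0 = C.D0 + C'.D0 := by
  rw [CondFamN.D0, Fintype.sum_sum_type]
  rfl

theorem sumFam_Ediv (T : α → mA 𝔻) (T' : α' → mA 𝔻) :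
    (sumFam C C' h).Ediv (Sum.elim T T') = C.Ediv T + C'.Ediv T' := by
  rw [CondFamN.Ediv, Fintype.sum_sum_type]
  rfl

end sumFam

/-- the relation between the coordinates of the condition points and of the residual zeros of a
simple step -/
def Rel {α : Type*} [Fintype α] [DecidableEq α] {g : ℕ} (X : StepPreN 𝔻 α g) (T : α → mA 𝔻)
    (T'' : Fin g → mA 𝔻) : Prop :=
  (∀ P : Place L F, P.ord (X.sec T) = X.Bdiv T P + X.S.Ediv T'' P) ∧
    ∀ q, ∑ j, X.mu T j * evN (X.S.comp_r_pt q (T'' q)) (X.hS q j) = 0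

theorem exists_rel [Finite ι] [Nonempty ι] {α : Type*} [Fintype α] [DecidableEq α] {g : ℕ}
    (X : StepPreN 𝔻 α g) (hpolar : IsUnit X.polar.det) (T : α → mA 𝔻) : ∃ T'', Rel X T T'' :=
  X.exact_step hpolar T

/-- the data of the two chains -/
structure ChainDataN (𝔻 : SemiRedDatum L F k Ft ι E) (g : ℕ) where
  S0 : NSSystemN 𝔻 g
  S0' : NSSystemN 𝔻 g
  S1 : NSSystemN 𝔻 g
  d01 : ∀ i j, (S0.c i, S0.Q i) ≠ (S1.c j, S1.Q j)
  d0'1 : ∀ i j, (S0'.c i, S0'.Q i) ≠ (S1.c j, S1.Q j)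
  d00' : ∀ i j, (S0.c i, S0.Q i) ≠ (S0'.c j, S0'.Q j)
  bA : Fin g → F
  bA_G : ∀ j v, bA j ∈ 𝔻.G v
  bA_L : ∀ j, bA j ∈ riemannRochSpace ((CondFamN.ofNS S0).D0 + S1.D0)
  bB : Fin g → F
  bB_G : ∀ j v, bB j ∈ 𝔻.G v
  bB_L : ∀ j, bB j ∈ riemannRochSpace ((CondFamN.ofNS S1).D0 + S0'.D0)
  bC : Fin g ⊕ Fin g → F
  bC_G : ∀ j v, bC j ∈ 𝔻.G v
  bC_L : ∀ j, bC j ∈ riemannRochSpace
    ((sumFam (CondFamN.ofNS S0) (CondFamN.ofNS S0') d00').D0 + S1.D0)
  bD : Fin g → F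
  bD_G : ∀ j v, bD j ∈ 𝔻.G v
  bD_L : ∀ j, bD j ∈ riemannRochSpace ((CondFamN.ofNS S1).D0 + S0.D0)

namespace ChainDataN

variable {g : ℕ} (K : ChainDataN 𝔻 g)

/-- step A: conditions at `S0`, residual `S1` -/
def XA : StepPreN 𝔻 (Fin g) g :=
  ⟨CondFamN.ofNS K.S0, K.S1, K.d01, K.bA, K.bA_G, K.bA_L⟩

/-- step B: conditions at `S1`, residual `S0'` -/
def XB : StepPreN 𝔻 (Fin g) g :=
  ⟨CondFamN.ofNS K.S1, K.S0', fun i j => (K.d0'1 j i).symm, K.bB, K.bB_G, K.bB_L⟩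

/-- step C: conditions at `S0 ⊔ S0'`, residual `S1` -/
def XC : StepPreN 𝔻 (Fin g ⊕ Fin g) g :=
  ⟨sumFam (CondFamN.ofNS K.S0) (CondFamN.ofNS K.S0') K.d00', K.S1,
    fun x j => match x with
      | Sum.inl a => K.d01 a j
      | Sum.inr a => K.d0'1 a j,
    K.bC, K.bC_G, K.bC_L⟩

/-- step D: conditions at `S1`, residual `S0` -/
def XD : StepPreN 𝔻 (Fin g) g :=
  ⟨CondFamN.ofNS K.S1, K.S0, fun i j => (K.d01 j i).symm, K.bD, K.bD_G, K.bD_L⟩

/-- the polar conditions of the four steps -/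
structure Polar : Prop where
  hA : IsUnit K.XA.polar.det
  hB : IsUnit K.XB.polar.det
  hC : IsUnit K.XC.polar.det
  hD : IsUnit K.XD.polar.det

theorem kap_of_div {S S' : NSSystemN 𝔻 g} {T T' : Fin g → mA 𝔻} {s z : F} (hs : s ≠ 0)
    (hz : z ≠ 0)
    (h : ∀ P : Place L F, P.ord z - P.ord s =
      (S'.Ediv T' P - S'.D0 P) - (S.Ediv T P - S.D0 P)) : S.kap T = S'.kap T' := by
  rw [NSSystemN.kap, NSSystemN.kap, Fermat.Agent.FF.KER.Ker0.NSSystem.mk_eq_mk_iff]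
  refine ⟨z / s, div_ne_zero hz hs, fun P => ?_⟩
  rw [div_eq_mul_inv, P.ord_mul hz (inv_ne_zero hs), Place.ord_inv]
  show (S'.Ediv T' - S'.D0 - (S.Ediv T - S.D0)) P = _
  simp only [Finsupp.sub_apply]
  have := h P
  omega

/-- **transition**: steps A and B. -/
theorem kap_trans {T' ζ T'' : Fin g → mA 𝔻} (hA : Rel K.XA T' ζ) (hB : Rel K.XB ζ T'') :
    K.S0.kap T' = K.S0'.kap T'' := by
  refine kap_of_div (K.XA.sec_ne_zero T') (K.XB.sec_ne_zero ζ) fun P => ?_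
  rw [hA.1 P, hB.1 P]
  simp only [StepPreN.Bdiv, Finsupp.sub_apply, XA, XB, CondFamN.ofNS_Ediv, CondFamN.ofNS_D0]
  ring

/-- **sum**: steps C and D. -/
theorem kap_sum {T T'' ζ' T''' : Fin g → mA 𝔻} (hC : Rel K.XC (Sum.elim T T'') ζ')
    (hD : Rel K.XD ζ' T''') : K.S0.kap T + K.S0'.kap T'' = K.S0.kap T''' := by
  rw [NSSystemN.kap, NSSystemN.kap, NSSystemN.kap, ← Pic0.mk_add,
    Fermat.Agent.FF.KER.Ker0.NSSystem.mk_eq_mk_iff]
  refine ⟨K.XD.sec ζ' / K.XC.sec (Sum.elim T T''),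
    div_ne_zero (K.XD.sec_ne_zero ζ') (K.XC.sec_ne_zero _), fun P => ?_⟩
  rw [div_eq_mul_inv, P.ord_mul (K.XD.sec_ne_zero ζ') (inv_ne_zero (K.XC.sec_ne_zero _)),
    Place.ord_inv, hC.1 P, hD.1 P]
  show (K.S0.Ediv T''' - K.S0.D0 - ((K.S0.Ediv T - K.S0.D0) + (K.S0'.Ediv T'' - K.S0'.D0))) P = _
  simp only [StepPreN.Bdiv, Finsupp.sub_apply, Finsupp.add_apply, XC, XD, CondFamN.ofNS_Ediv,
    CondFamN.ofNS_D0, sumFam_Ediv, sumFam_D0]
  ring

/-- **the exact chain**: for `T, T'` the four steps can be carried out and compute the sum. -/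
theorem exists_chain [Finite ι] [Nonempty ι] (hK : K.Polar) (T T' : Fin g → mA 𝔻) :
    ∃ ζ T'' ζ' T''' : Fin g → mA 𝔻, Rel K.XA T' ζ ∧ Rel K.XB ζ T'' ∧
      Rel K.XC (Sum.elim T T'') ζ' ∧ Rel K.XD ζ' T''' ∧
      K.S0.kap T + K.S0.kap T' = K.S0.kap T''' := by
  obtain ⟨ζ, hζ⟩ := exists_rel K.XA hK.hA T'
  obtain ⟨T'', hT''⟩ := exists_rel K.XB hK.hB ζ
  obtain ⟨ζ', hζ'⟩ := exists_rel K.XC hK.hC (Sum.elim T T'')
  obtain ⟨T''', hT'''⟩ := exists_rel K.XD hK.hD ζ'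
  refine ⟨ζ, T'', ζ', T''', hζ, hT'', hζ', hT''', ?_⟩
  rw [K.kap_trans hζ hT'']
  exact K.kap_sum hζ' hT'''

end ChainDataN

end

end Fermat.Agent.ORD.FAMN.ChainN6
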