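/-
PROGRAMME ORD (S33), chapter FAMN (helper3): **the polar family on a semistable datum** — the port of
`FF/FAM/Polar4` from `RedDatum` to `SemiRedDatum9.SemiRedDatum`.

Downstairs (the nodal special fibre): `SecSp 𝔻 Dt ≤ (ι → Ft)`, the `k`-space of tuples `(f v)` (zero
components allowed) with poles bounded by `Dt`, regular and MATCHED at the branches of every node;
`redAll : Gall →+* (ι → Ft)` the tuple of reductions; for condition centres `C : CondFamN 𝔻 α` the
**polar map** `SecSp(Σ_a (c_a, Q_a) + D~0) → k^α`, `f ↦ ((f_{c_a} · t_a)(Q_a))_a`; its kernel consists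
of constant tuples (non-speciality of `D~0` on the nodal curve, `NSSystemN.const_of_sec`).

Upstairs: an everywhere integral function of `L(ΣC_a + S.D0)` has its tuple of reductions in `SecSp`
(fibre sums on the smooth discs, helper3's `nodeMatched` at the nodes).  With the simultaneous
orthonormalisation of chapter NSN (`OrthHyp`: a finite-dimensional `V ⊂ F` has `finrank V` elements of
`Gall` with `k`-independent tuples of reductions — helper9's `OrthN`) and `l(B) ≥ |α| + 1` (Riemann), a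
rank count gives `b j ∈ Gall ∩ L(B)` whose matrix of leading polar coefficients `(b_j u_a)(C_a)` lies
in `A` and reduces to the identity (`exists_polar_family`).
-/
import Mathlib
import Fermat.Agent.ORD.KERN.KerN9
import Fermat.Agent.ORD.FAMN.CondN3

set_option autoImplicit false
set_option linter.unusedSectionVars false
set_option linter.style.longLine false

namespace Fermat.Agent.ORD.FAMN.PolarN3

open AlgebraicCurve Fermat.Agent.X0.FF Fermat.Agent.RR.LSpace Fermat.Agent.MW.EMB.Value6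
open Fermat.Agent.ORD.SEMIRED.SemiRedDatum9 Fermat.Agent.ORD.REDN.DiscC9
open Fermat.Agent.ORD.KERN.KerDefs9 Fermat.Agent.ORD.KERN.KerN9 Fermat.Agent.ORD.FAMN.CondN3
open Fermat.Agent.FF.KER.Ker0 (mapDomain_nonneg)

noncomputable section

/-! ### linear algebra -/

/-- `n ≥ |α| + 1` independent vectors and a linear map to `k^α` whose kernel lies on a line: every
target is the image of a combination of the vectors. -/
theorem exists_comb_of_ker_le_line {k W : Type*} [Field k] [AddCommGroup W] [Module k W]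
    {α : Type*} [Fintype α] {n : ℕ} (w : Fin n → W) (hw : LinearIndependent k w)
    (π : W →ₗ[k] (α → k)) (e : W) (hker : ∀ x, π x = 0 → ∃ c : k, x = c • e)
    (hn : Fintype.card α + 1 ≤ n) (y : α → k) : ∃ c : Fin n → k, π (∑ i, c i • w i) = y := by
  classical
  set Ψ : (Fin n → k) →ₗ[k] W := Fintype.linearCombination k w with hΨdef
  have hΨ : Function.Injective Ψ := hw.fintypeLinearCombination_injective
  set Φ : (Fin n → k) →ₗ[k] (α → k) := π.comp Ψ with hΦdef
  have hkerdim : Module.finrank k (LinearMap.ker Φ) ≤ 1 := by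
    have h1 : (LinearMap.ker Φ).map Ψ ≤ Submodule.span k {e} := by
      rintro _ ⟨c, hc, rfl⟩
      obtain ⟨a, ha⟩ := hker (Ψ c) (LinearMap.mem_ker.mp hc)
      rw [ha]
      exact Submodule.smul_mem _ _ (Submodule.mem_span_singleton_self e)
    have h2 : Module.finrank k ((LinearMap.ker Φ).map Ψ) = Module.finrank k (LinearMap.ker Φ) :=
      (Submodule.equivMapOfInjective Ψ hΨ _).finrank_eq.symm
    have h3 : Module.finrank k (Submodule.span k {e}) ≤ 1 := by
      by_cases he : e = 0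
      · rw [he, Submodule.span_zero_singleton, finrank_bot]
        exact Nat.zero_le 1
      · rw [finrank_span_singleton he]
    have h4 := Submodule.finrank_mono h1
    omega
  have hrn := LinearMap.finrank_range_add_finrank_ker Φ
  rw [Module.finrank_fintype_fun_eq_card, Fintype.card_fin] at hrn
  have hrange : LinearMap.range Φ = ⊤ := by
    apply Submodule.eq_top_of_finrank_eq
    rw [Module.finrank_fintype_fun_eq_card]
    have h3 : Module.finrank k (LinearMap.range Φ) ≤ Fintype.card α := by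
      have := Submodule.finrank_le (LinearMap.range Φ)
      rwa [Module.finrank_fintype_fun_eq_card] at this
    omega
  obtain ⟨c, hc⟩ := (LinearMap.range_eq_top.mp hrange) y
  refine ⟨c, ?_⟩
  rw [← hc, hΦdef, LinearMap.comp_apply, hΨdef, Fintype.linearCombination_apply]

variable {L F k Ft : Type*} [Field L] [Field F] [Algebra L F] [Field k] [Field Ft] [Algebra k Ft]
variable {ι E : Type*}

/-! ### sections on the nodal curve -/

section Down

variable (𝔻 : SemiRedDatum L F k Ft ι E)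

/-- **Sections of `O(Dt)` on the nodal curve**, as a `k`-subspace of the tuples: zero components
allowed, poles bounded by `Dt`, regular and matched at the two branches of every node. -/
def SecSp (Dt : ι → Place k Ft → ℤ) : Submodule k (ι → Ft) where
  carrier := {f | (∀ v, f v ≠ 0 → ∀ Q : Place k Ft, -(Dt v Q) ≤ Q.ord (f v)) ∧
    (∀ e, f (𝔻.src e) ∈ (𝔻.Qs e).toValuationSubring) ∧
    (∀ e, f (𝔻.tgt e) ∈ (𝔻.Qt e).toValuationSubring) ∧
    ∀ e, valF 𝔻.Hk (𝔻.Qs e) (f (𝔻.src e)) = valF 𝔻.Hk (𝔻.Qt e) (f (𝔻.tgt e))}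
  add_mem' := by
    rintro f f' ⟨h1, h2, h3, h4⟩ ⟨h1', h2', h3', h4'⟩
    refine ⟨fun v hv Q => ?_, fun e => add_mem (h2 e) (h2' e), fun e => add_mem (h3 e) (h3' e),
      fun e => ?_⟩
    · rw [Pi.add_apply] at hv ⊢
      by_cases hf : f v = 0
      · rw [hf, zero_add] at hv ⊢
        exact h1' v hv Q
      by_cases hf' : f' v = 0
      · rw [hf', add_zero]
        exact h1 v hf Q
      exact ffp_le_ord_add Q (h1 v hf Q) (h1' v hf' Q) hv
    · rw [Pi.add_apply, Pi.add_apply, valF_add 𝔻.Hk _ (h2 e) (h2' e),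
        valF_add 𝔻.Hk _ (h3 e) (h3' e), h4 e, h4' e]
  zero_mem' := ⟨fun v hv => absurd rfl hv, fun e => zero_mem _, fun e => zero_mem _,
    fun e => by rw [Pi.zero_apply, Pi.zero_apply, valF_zero, valF_zero]⟩
  smul_mem' := by
    rintro c f ⟨h1, h2, h3, h4⟩
    have hmem : ∀ (Q : Place k Ft) (y : Ft), y ∈ Q.toValuationSubring →
        c • y ∈ Q.toValuationSubring := fun Q y hy => by
      rw [Algebra.smul_def]
      exact Q.toValuationSubring.mul_mem _ _ (Q.algebraMap_mem' c) hy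
    refine ⟨fun v hv Q => ?_, fun e => hmem _ _ (h2 e), fun e => hmem _ _ (h3 e), fun e => ?_⟩
    · rw [Pi.smul_apply] at hv ⊢
      have hc : c ≠ 0 := fun h0 => hv (by rw [h0, zero_smul])
      have hf : f v ≠ 0 := fun h0 => hv (by rw [h0, smul_zero])
      rw [Algebra.smul_def, Q.ord_mul ((map_ne_zero _).mpr hc) hf, ffp_ord_algebraMap, zero_add]
      exact h1 v hf Q
    · rw [Pi.smul_apply, Pi.smul_apply, valF_smul 𝔻.Hk _ c (h2 e), valF_smul 𝔻.Hk _ c (h3 e), h4 e]

variable {𝔻}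

theorem mem_SecSp {Dt : ι → Place k Ft → ℤ} {f : ι → Ft} : f ∈ SecSp 𝔻 Dt ↔
    (∀ v, f v ≠ 0 → ∀ Q : Place k Ft, -(Dt v Q) ≤ Q.ord (f v)) ∧
    (∀ e, f (𝔻.src e) ∈ (𝔻.Qs e).toValuationSubring) ∧
    (∀ e, f (𝔻.tgt e) ∈ (𝔻.Qt e).toValuationSubring) ∧
    ∀ e, valF 𝔻.Hk (𝔻.Qs e) (f (𝔻.src e)) = valF 𝔻.Hk (𝔻.Qt e) (f (𝔻.tgt e)) := Iff.rfl

/-- the constant tuple `1` is a section of `O(Dt)` for `Dt ≥ 0`. -/
theorem one_mem_SecSp {Dt : ι → Place k Ft → ℤ} (hDt : ∀ v Q, 0 ≤ Dt v Q) :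
    (fun _ => 1 : ι → Ft) ∈ SecSp 𝔻 Dt := by
  refine ⟨fun v _ Q => ?_, fun e => one_mem _, fun e => one_mem _, fun e => ?_⟩
  · rw [Place.ord_one]
    have := hDt v Q
    omega
  · rw [valF_one, valF_one]

variable (𝔻)

/-- **the tuple of reductions** of an everywhere integral function. -/
def redAll : 𝔻.Gall →+* (ι → Ft) :=
  RingHom.pi fun v => (𝔻.red v).comp (Subring.inclusion fun _ hs => 𝔻.mem_Gall.mp hs v)

variable {𝔻}

/-- an everywhere integral function as an element of the Gauss ring of the component `v`. -/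
def toGv (s : 𝔻.Gall) (v : ι) : 𝔻.G v := ⟨(s : F), 𝔻.mem_Gall.mp s.2 v⟩

@[simp] theorem coe_toGv (s : 𝔻.Gall) (v : ι) : ((toGv s v : 𝔻.G v) : F) = (s : F) := rfl

theorem redAll_apply (s : 𝔻.Gall) (v : ι) :
    redAll 𝔻 s v = 𝔻.red v ⟨(s : F), 𝔻.mem_Gall.mp s.2 v⟩ := rfl

theorem redAll_apply' (s : 𝔻.Gall) (v : ι) : redAll 𝔻 s v = 𝔻.red v (toGv s v) := rfl

variable (𝔻)

/-- the constant `a ∈ A` as an everywhere integral function. -/
def constAll (a : 𝔻.A) : 𝔻.Gall :=
  ⟨algebraMap L F (a : L), 𝔻.mem_Gall.mpr fun v => (𝔻.side v).const_mem a⟩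

variable {𝔻}

@[simp] theorem coe_constAll (a : 𝔻.A) : ((constAll 𝔻 a : 𝔻.Gall) : F) = algebraMap L F (a : L) :=
  rfl

theorem redAll_constAll (a : 𝔻.A) (v : ι) :
    redAll 𝔻 (constAll 𝔻 a) v = algebraMap k Ft (𝔻.res a) := (𝔻.side v).red_const a

theorem redAll_constAll_mul (a : 𝔻.A) (s : 𝔻.Gall) :
    redAll 𝔻 (constAll 𝔻 a * s) = 𝔻.res a • redAll 𝔻 s := by
  funext v
  rw [map_mul, Pi.mul_apply, redAll_constAll, Pi.smul_apply, Algebra.smul_def]

/-- **the hypothesis supplied by chapter NSN (`OrthN`)**: simultaneous orthonormalisation for the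
Gauss norms of all the components: a finite-dimensional `L`-subspace of `F` contains `finrank V`
everywhere integral functions with `k`-linearly independent tuples of reductions. -/
def OrthHyp (𝔻 : SemiRedDatum L F k Ft ι E) : Prop :=
  ∀ (V : Submodule L F) [FiniteDimensional L V], ∃ φ : Fin (Module.finrank L V) → 𝔻.Gall,
    (∀ i, ((φ i : 𝔻.Gall) : F) ∈ V) ∧ LinearIndependent k (fun i => redAll 𝔻 (φ i))

end Down

/-! ### the polar map and the polar family -/

section Up

variable {𝔻 : SemiRedDatum L F k Ft ι E} {g : ℕ} (S : NSSystemN 𝔻 g)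
variable {α : Type*} [Fintype α] (C : CondFamN 𝔻 α)

/-- the reduced polar divisor `Σ_a (c_a, Q_a) + D~0`, as a function on the points of the
components. -/
def Bt (v : ι) (Q : Place k Ft) : ℤ := C.redDiv (Sum.inl (v, Q)) + S.redDiv (Sum.inl (v, Q))

theorem Bt_nonneg (v : ι) (Q : Place k Ft) : 0 ≤ Bt S C v Q := by
  have h1 := C.redDiv_nonneg (Sum.inl (v, Q))
  have h2 := S.redDiv_nonneg (Sum.inl (v, Q))
  simp only [Finsupp.coe_zero, Pi.zero_apply] at h1 h2
  unfold Bt
  omega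

theorem mapDomain_polB :
    Finsupp.mapDomain 𝔻.r (C.D0 + S.D0) = C.redDiv + S.redDiv := by
  rw [Finsupp.mapDomain_add, C.mapDomain_D0, S.mapDomain_D0]

theorem offAnn_polB : OffAnn 𝔻 (C.D0 + S.D0) := C.offAnn_D0.add S.offAnn_D0

theorem polB_nonneg : 0 ≤ C.D0 + S.D0 := add_nonneg C.D0_nonneg S.D0_nonneg

theorem degree_polB : Divisor.degree (C.D0 + S.D0) = (Fintype.card α : ℤ) + g := by
  rw [map_add, C.degree_D0, S.degree_D0]

/-- membership in `L(B)` in order form (also valid for the zero function since `B ≥ 0`). -/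
theorem neg_polB_le_ord {b : F} (hb : b ∈ riemannRochSpace (C.D0 + S.D0)) (P : Place L F) :
    -((C.D0 + S.D0) P) ≤ P.ord b := by
  by_cases hb0 : b = 0
  · rw [hb0, Place.ord_zero]
    have := polB_nonneg S C P
    simp only [Finsupp.coe_zero, Pi.zero_apply] at this
    omega
  · exact (mem_L_iff hb0).mp hb P

/-- a function of `L(B)` has no pole on the node annuli. -/
theorem poleFreeAnn_of_mem_L {b : F} (hb : b ∈ riemannRochSpace (C.D0 + S.D0)) (e : E) :
    𝔻.PoleFreeAnn b e := by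
  intro P hP
  have := neg_polB_le_ord S C hb P
  rwa [offAnn_polB S C P e hP, neg_zero] at this

/-- **the tuple of reductions of an everywhere integral function of `L(B)` is a section of
`O(B~)` on the nodal curve.** -/
theorem redAll_mem_SecSp (b : 𝔻.Gall) (hb : (b : F) ∈ riemannRochSpace (C.D0 + S.D0)) :
    redAll 𝔻 b ∈ SecSp 𝔻 (Bt S C) := by
  have hNM := Fermat.Agent.ORD.ANN.MatchedDatum3.nodeMatched 𝔻
  have hpf : ∀ e, 𝔻.PoleFreeAnn (b : F) e := poleFreeAnn_of_mem_L S C hb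
  refine ⟨fun v hv Q' => ?_, fun e => ?_, fun e => ?_, fun e => ?_⟩
  · rw [redAll_apply] at hv ⊢
    by_cases hbr : 𝔻.IsBranch v Q'
    · have h0 : Bt S C v Q' = 0 := by
        unfold Bt
        rw [C.redDiv_apply_of_isBranch hbr, S.redDiv_apply_of_isBranch hbr, add_zero]
      rw [h0, neg_zero]
      rcases hbr with ⟨e, rfl, rfl⟩ | ⟨e, rfl, rfl⟩
      · exact (hNM e _ (𝔻.mem_Gall.mp b.2 _) (𝔻.mem_Gall.mp b.2 _) (hpf e)).1
      · exact (hNM e _ (𝔻.mem_Gall.mp b.2 _) (𝔻.mem_Gall.mp b.2 _) (hpf e)).2.1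
    · have hb0 : (b : F) ≠ 0 :=
        (𝔻.side v).coe_ne_zero_of_red_ne_zero (g := ⟨(b : F), 𝔻.mem_Gall.mp b.2 v⟩) hv
      have h1 : Finsupp.mapDomain 𝔻.r (divOf 𝔻.HL hb0) (Sum.inl (v, Q')) =
          Q'.ord (𝔻.red v ⟨(b : F), 𝔻.mem_Gall.mp b.2 v⟩) :=
        𝔻.compat v ⟨(b : F), 𝔻.mem_Gall.mp b.2 v⟩ hv (divOf 𝔻.HL hb0)
          (fun P => divOf_apply 𝔻.HL hb0 P) Q' (𝔻.exists_r_of_isSm hbr)
      have hZ : 0 ≤ divOf 𝔻.HL hb0 + (C.D0 + S.D0) := by
        intro P
        rw [Finsupp.add_apply, divOf_apply]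
        have := (mem_L_iff hb0).mp hb P
        simp only [Finsupp.coe_zero, Pi.zero_apply]
        omega
      have h2 := mapDomain_nonneg 𝔻.r hZ (Sum.inl (v, Q'))
      rw [Finsupp.mapDomain_add, Finsupp.add_apply, h1, mapDomain_polB, Finsupp.add_apply] at h2
      simp only [Finsupp.coe_zero, Pi.zero_apply] at h2
      unfold Bt
      omega
  · exact ffp_mem_of_ord_nonneg _
      (hNM e _ (𝔻.mem_Gall.mp b.2 _) (𝔻.mem_Gall.mp b.2 _) (hpf e)).1
  · exact ffp_mem_of_ord_nonneg _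
      (hNM e _ (𝔻.mem_Gall.mp b.2 _) (𝔻.mem_Gall.mp b.2 _) (hpf e)).2.1
  · exact (hNM e _ (𝔻.mem_Gall.mp b.2 _) (𝔻.mem_Gall.mp b.2 _) (hpf e)).2.2.1

/-- the reduction of the uniformizer at the `a`-th centre -/
def tC (a : α) : Ft := 𝔻.red (C.c a) (C.u a)

theorem ord_tC (a : α) : (C.Q a).ord (tC C a) = 1 := (C.good a).ord_red

theorem tC_ne_zero (a : α) : tC C a ≠ 0 := (C.good a).red_ne_zero

variable (disj : ∀ a i, (C.c a, C.Q a) ≠ (S.c i, S.Q i))
include disj

theorem redDiv_apply_C (a : α) : S.redDiv (Sum.inl (C.c a, C.Q a)) = 0 :=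
  S.redDiv_apply_of_ne fun i h => disj a i (Sum.inl.inj h).symm

theorem Bt_apply_C (a : α) : Bt S C (C.c a) (C.Q a) = 1 := by
  unfold Bt
  rw [C.redDiv_apply_Q, redDiv_apply_C S C disj, add_zero]

/-- for a section `f` of `O(B~)`, `f_{c_a} · t_a` is regular at `Q_a`. -/
theorem mul_tC_mem {f : ι → Ft} (hf : f ∈ SecSp 𝔻 (Bt S C)) (a : α) :
    f (C.c a) * tC C a ∈ (C.Q a).toValuationSubring := by
  by_cases hf0 : f (C.c a) = 0
  · rw [hf0, zero_mul]; exact zero_mem _
  apply ffp_mem_of_ord_nonneg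
  rw [(C.Q a).ord_mul hf0 (tC_ne_zero C a), ord_tC]
  have := hf.1 (C.c a) hf0 (C.Q a)
  rw [Bt_apply_C S C disj] at this
  omega

/-- **The polar map** `SecSp(B~) → k^α`, `f ↦ (value of f_{c_a} · t_a at Q_a)_a`. -/
def polarN : SecSp 𝔻 (Bt S C) →ₗ[k] (α → k) where
  toFun f a := valF 𝔻.Hk (C.Q a) ((f : ι → Ft) (C.c a) * tC C a)
  map_add' f f' := by
    funext a
    show valF 𝔻.Hk (C.Q a) (((f : ι → Ft) (C.c a) + (f' : ι → Ft) (C.c a)) * tC C a) = _
    rw [add_mul, valF_add 𝔻.Hk (C.Q a) (mul_tC_mem S C disj f.2 a) (mul_tC_mem S C disj f'.2 a)]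
    rfl
  map_smul' c f := by
    funext a
    show valF 𝔻.Hk (C.Q a) ((c • (f : ι → Ft) (C.c a)) * tC C a) =
      c • valF 𝔻.Hk (C.Q a) ((f : ι → Ft) (C.c a) * tC C a)
    rw [smul_mul_assoc, valF_smul 𝔻.Hk (C.Q a) c (mul_tC_mem S C disj f.2 a), smul_eq_mul]

theorem polarN_apply (f : SecSp 𝔻 (Bt S C)) (a : α) :
    polarN S C disj f a = valF 𝔻.Hk (C.Q a) ((f : ι → Ft) (C.c a) * tC C a) := rfl

/-- **the kernel of the polar map consists of constant tuples** (non-speciality of `D~0` on the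
nodal curve). -/
theorem const_of_polarN_eq_zero (f : SecSp 𝔻 (Bt S C)) (h : polarN S C disj f = 0) :
    ∃ a : k, ∀ v, (f : ι → Ft) v = algebraMap k Ft a := by
  classical
  obtain ⟨h1, h2, h3, h4⟩ := f.2
  refine S.const_of_sec (f : ι → Ft) (fun v hv Q' => ?_) h4
  by_cases hex : ∃ a, (C.c a, C.Q a) = (v, Q')
  · obtain ⟨a, ha⟩ := hex
    have hv' : C.c a = v := congrArg Prod.fst ha
    have hQ' : C.Q a = Q' := congrArg Prod.snd ha
    subst hv' hQ'
    rw [redDiv_apply_C S C disj, neg_zero]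
    have h5 : valF 𝔻.Hk (C.Q a) ((f : ι → Ft) (C.c a) * tC C a) = 0 := congrFun h a
    rw [valF_eq_zero_iff 𝔻.Hk (C.Q a) (mul_tC_mem S C disj f.2 a)] at h5
    rcases h5 with h5 | h5
    · exact absurd h5 (mul_ne_zero hv (tC_ne_zero C a))
    · rw [(C.Q a).ord_mul hv (tC_ne_zero C a), ord_tC] at h5
      omega
  · push Not at hex
    have := h1 v hv Q'
    unfold Bt at this
    rw [C.redDiv_apply_of_ne (fun a ha => hex a (Sum.inl.inj ha)), zero_add] at this
    exact this

/-- For `b ∈ L(B)`, `b * u a` has no pole on the disc of `C a`. -/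
theorem poleFree_mul_unif {b : F} (hb : b ∈ riemannRochSpace (C.D0 + S.D0)) (a : α) :
    (𝔻.comp (C.c a)).PoleFree (b * (C.u a : F)) (C.Q a) := by
  intro P' hP'
  have hP'' : 𝔻.r P' = Sum.inl (C.c a, C.Q a) := (𝔻.comp_r_eq_some_iff).mp hP'
  by_cases hb0 : b = 0
  · rw [hb0, zero_mul, Place.ord_zero]
  rw [P'.ord_mul hb0 (C.u_ne_zero a), C.ord_u_of_r hP'']
  have hB := (mem_L_iff hb0).mp hb P'
  have hS0 : S.D0 P' = 0 := by
    have := (CondFamN.ofNS S).D0_apply_of_not (P' := P') (fun i h => disj a i (by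
      rw [hP''] at h
      exact Sum.inl.inj h))
    simpa using this
  rw [Finsupp.add_apply, C.D0_apply_of_r hP'', hS0] at hB
  split_ifs at hB ⊢ <;> omega

omit [Fintype α] disj in
theorem coe_sum_constAll_mul {n : ℕ} (c : Fin n → 𝔻.A) (φ : Fin n → 𝔻.Gall) :
    ((∑ i, constAll 𝔻 (c i) * φ i : 𝔻.Gall) : F) = ∑ i, ((c i : 𝔻.A) : L) • ((φ i : 𝔻.Gall) : F) := by
  rw [← Subring.subtype_apply, map_sum]
  refine Finset.sum_congr rfl fun i _ => ?_
  rw [Subring.subtype_apply, Subring.coe_mul, coe_constAll, Algebra.smul_def]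

variable [DecidableEq α]

/-- **(R3) POLAR FAMILY on a semistable datum.**  For condition centres `C` and a residual
non-special system `S`, all discs pairwise distinct, and `l(B) ≥ |α| + 1` for `B = C.D0 + S.D0`:
there are EVERYWHERE integral functions `b j ∈ L(B)` (`j : α`) whose matrix of leading polar
coefficients `(b j * u a)(C a)` has entries in `A` and reduces to the identity matrix. -/
theorem exists_polar_family (hOrth : OrthHyp 𝔻)
    (hl : Fintype.card α + 1 ≤ Module.finrank L (riemannRochSpace (C.D0 + S.D0))) :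
    ∃ b : α → 𝔻.Gall, (∀ j, ((b j : 𝔻.Gall) : F) ∈ riemannRochSpace (C.D0 + S.D0)) ∧
      ∃ M : Matrix α α 𝔻.A, (∀ a j, 𝔻.res (M a j) = if a = j then 1 else 0) ∧ IsUnit M.det ∧
        ∀ a j, ((M a j : 𝔻.A) : L) = valF 𝔻.HL (C.P a) (((b j : 𝔻.Gall) : F) * (C.u a : F)) := by
  classical
  have := finiteDimensional_L 𝔻.HL (C.D0 + S.D0)
  obtain ⟨φ, hφV, hli⟩ := hOrth (riemannRochSpace (C.D0 + S.D0))
  let w : Fin (Module.finrank L (riemannRochSpace (C.D0 + S.D0))) → SecSp 𝔻 (Bt S C) := fun i =>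
    ⟨redAll 𝔻 (φ i), redAll_mem_SecSp S C (φ i) (hφV i)⟩
  have hw : LinearIndependent k w := by
    apply LinearIndependent.of_comp (SecSp 𝔻 (Bt S C)).subtype
    exact hli
  let e : SecSp 𝔻 (Bt S C) := ⟨fun _ => 1, one_mem_SecSp (Bt_nonneg S C)⟩
  have hker : ∀ x, polarN S C disj x = 0 → ∃ c : k, x = c • e := by
    intro x hx
    obtain ⟨a, ha⟩ := const_of_polarN_eq_zero S C disj x hx
    refine ⟨a, Subtype.ext (funext fun v => ?_)⟩
    rw [ha v]
    show _ = a • (1 : Ft)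
    rw [Algebra.smul_def, mul_one]
  choose ct hct using fun j : α =>
    exists_comb_of_ker_le_line w hw (polarN S C disj) e hker hl (fun a => if a = j then 1 else 0)
  choose c hc using fun j i => 𝔻.B.res_surj (ct j i)
  let b : α → 𝔻.Gall := fun j => ∑ i, constAll 𝔻 (c j i) * φ i
  have hbmem : ∀ j, ((b j : 𝔻.Gall) : F) ∈ riemannRochSpace (C.D0 + S.D0) := by
    intro j
    rw [coe_sum_constAll_mul]
    exact Submodule.sum_mem _ fun i _ => Submodule.smul_mem _ _ (hφV i)
  have hbred : ∀ j, redAll 𝔻 (b j) = ((∑ i, ct j i • w i : SecSp 𝔻 (Bt S C)) : ι → Ft) := by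
    intro j
    show redAll 𝔻 (∑ i, constAll 𝔻 (c j i) * φ i) = _
    rw [map_sum, ← Submodule.subtype_apply, map_sum]
    refine Finset.sum_congr rfl fun i _ => ?_
    rw [redAll_constAll_mul, hc, map_smul]
    rfl
  have hpf : ∀ a j, (𝔻.comp (C.c a)).PoleFree
      (((toGv (b j) (C.c a) * C.u a : 𝔻.G (C.c a))) : F) (C.Q a) :=
    fun a j => poleFree_mul_unif S C disj (hbmem j) a
  let M : Matrix α α 𝔻.A := Matrix.of fun a j =>
    valA (𝔻.comp (C.c a)) (toGv (b j) (C.c a) * C.u a : 𝔻.G (C.c a)) (hpf a j) (C.good a).r_eq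
  have hMres : ∀ a j, 𝔻.res (M a j) = if a = j then 1 else 0 := by
    intro a j
    have h0 := res_valF (𝔻.comp (C.c a)) (toGv (b j) (C.c a) * C.u a : 𝔻.G (C.c a)) (hpf a j)
      (C.good a).r_eq
    have h1 := congrFun (hct j) a
    rw [polarN_apply, ← hbred j] at h1
    have h2 : (𝔻.comp (C.c a)).red (toGv (b j) (C.c a) * C.u a : 𝔻.G (C.c a)) =
        redAll 𝔻 (b j) (C.c a) * tC C a := map_mul (𝔻.red (C.c a)) _ _
    rw [h2] at h0
    exact h0.trans h1
  refine ⟨b, hbmem, M, hMres, ?_, fun a j => rfl⟩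
  have hdet : 𝔻.res M.det = 1 := by
    rw [RingHom.map_det]
    have : 𝔻.res.mapMatrix M = 1 := by
      ext a j
      rw [RingHom.mapMatrix_apply, Matrix.map_apply, hMres, Matrix.one_apply]
    rw [this, Matrix.det_one]
  by_contra hnu
  have := (𝔻.B.res_eq_zero_iff M.det).mpr hnu
  rw [hdet] at this
  exact one_ne_zero this

omit disj [DecidableEq α] in
/-- the hypothesis `l(B) ≥ |α| + 1` from Riemann's inequality. -/
theorem card_add_one_le_finrank
    (hRiem : ∀ E' : Divisor L F,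
      Divisor.degree E' + 1 - (g : ℤ) ≤ (Module.finrank L (riemannRochSpace E') : ℤ)) :
    Fintype.card α + 1 ≤ Module.finrank L (riemannRochSpace (C.D0 + S.D0)) := by
  have := hRiem (C.D0 + S.D0)
  rw [degree_polB] at this
  omega

end Up

end

end Fermat.Agent.ORD.FAMN.PolarN3
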