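/-
PROGRAMME ORD (S33), chapter FAMN (helper3): **the polar family, unconditional** — the hypothesis
`PolarN3.OrthHyp` is supplied by helper9's simultaneous orthonormalisation `OrthN9.exists_red_indep_one`.
-/
import Mathlib
import Fermat.Agent.ORD.FAMN.PolarN3
import Fermat.Agent.ORD.NSN.OrthN9

set_option autoImplicit false
set_option linter.unusedSectionVars false
set_option linter.style.longLine false

namespace Fermat.Agent.ORD.FAMN.PolarOrthN3

open AlgebraicCurve Fermat.Agent.X0.FF Fermat.Agent.RR.LSpace Fermat.Agent.MW.EMB.Value6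
open Fermat.Agent.ORD.SEMIRED.SemiRedDatum9 Fermat.Agent.ORD.KERN.KerDefs9
open Fermat.Agent.ORD.FAMN.CondN3 Fermat.Agent.ORD.FAMN.PolarN3

noncomputable section

variable {L F k Ft : Type*} [Field L] [Field F] [Algebra L F] [Field k] [Field Ft] [Algebra k Ft]
variable {ι E : Type*} (𝔻 : SemiRedDatum L F k Ft ι E)

/-- **(ORTH)** in the form consumed by `PolarN3`. -/
theorem orthHyp [Infinite k] [Finite ι] [Nonempty ι] [Finite E] : OrthHyp 𝔻 := by
  intro V _
  obtain ⟨φ, hφV, hG, hli⟩ := Fermat.Agent.ORD.NSN.OrthN9.exists_red_indep_one 𝔻 V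
  exact ⟨fun i => ⟨φ i, 𝔻.mem_Gall.mpr (hG i)⟩, hφV, hli⟩

variable {𝔻} {g : ℕ} (S : NSSystemN 𝔻 g) {α : Type*} [Fintype α] [DecidableEq α]
  (C : CondFamN 𝔻 α)

/-- **(R3) POLAR FAMILY on a semistable datum**, unconditional. -/
theorem exists_polar_family [Infinite k] [Finite ι] [Nonempty ι] [Finite E]
    (disj : ∀ a i, (C.c a, C.Q a) ≠ (S.c i, S.Q i))
    (hl : Fintype.card α + 1 ≤ Module.finrank L (riemannRochSpace (C.D0 + S.D0))) :
    ∃ b : α → 𝔻.Gall, (∀ j, ((b j : 𝔻.Gall) : F) ∈ riemannRochSpace (C.D0 + S.D0)) ∧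
      ∃ M : Matrix α α 𝔻.A, (∀ a j, 𝔻.res (M a j) = if a = j then 1 else 0) ∧ IsUnit M.det ∧
        ∀ a j, ((M a j : 𝔻.A) : L) = valF 𝔻.HL (C.P a) (((b j : 𝔻.Gall) : F) * (C.u a : F)) :=
  PolarN3.exists_polar_family S C disj (orthHyp 𝔻) hl

/-- **(R3)** from Riemann's inequality (genus form). -/
theorem exists_polar_family_of_riemann [Infinite k] [Finite ι] [Nonempty ι] [Finite E]
    (disj : ∀ a i, (C.c a, C.Q a) ≠ (S.c i, S.Q i))
    (hRiem : ∀ E' : Divisor L F,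
      Divisor.degree E' + 1 - (g : ℤ) ≤ (Module.finrank L (riemannRochSpace E') : ℤ)) :
    ∃ b : α → 𝔻.Gall, (∀ j, ((b j : 𝔻.Gall) : F) ∈ riemannRochSpace (C.D0 + S.D0)) ∧
      ∃ M : Matrix α α 𝔻.A, (∀ a j, 𝔻.res (M a j) = if a = j then 1 else 0) ∧ IsUnit M.det ∧
        ∀ a j, ((M a j : 𝔻.A) : L) = valF 𝔻.HL (C.P a) (((b j : 𝔻.Gall) : F) * (C.u a : F)) :=
  exists_polar_family S C disj (card_add_one_le_finrank S C hRiem)

end

end Fermat.Agent.ORD.FAMN.PolarOrthN3
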