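/-
Programme ORD (S33), chapter FAMN (helper6): **the polar family in `StepPreN` form** — port of helper4's
`FF/FAM/PolarStep4`: helper3's `PolarOrthN3.exists_polar_family` restated for `BridgeExactN6.StepPreN`:
for condition centres `C : CondFamN 𝔻 α` and a residual non-special system `S` with all discs distinct,
and `l(C.D0 + S.D0) ≥ |α| + 1` (Riemann's inequality), there are everywhere integral
`b j ∈ L(C.D0 + S.D0)` such that the polar matrix of the `StepPreN` `⟨C, S, disj, b, _, _⟩` has unit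
determinant.
-/
import Mathlib
import Fermat.Agent.ORD.FAMN.PolarOrthN3
import Fermat.Agent.ORD.FAMN.BridgeExactN6

set_option autoImplicit false
set_option linter.unusedSectionVars false
set_option linter.style.longLine false

namespace Fermat.Agent.ORD.FAMN.PolarStepN6

open AlgebraicCurve Fermat.Agent.X0.FF Fermat.Agent.RR.LSpace Fermat.Agent.MW.EMB.Value6
open Fermat.Agent.ORD.SEMIRED.SemiRedDatum9 Fermat.Agent.ORD.REDN.DiscC9
open Fermat.Agent.ORD.REDN.ExpandC5
open Fermat.Agent.ORD.KERN.KerDefs9 Fermat.Agent.ORD.FAMN.CondN3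
open Fermat.Agent.ORD.FAMN.BridgeExactN6 Fermat.Agent.ORD.FAMN.PolarN3

noncomputable section

variable {L F k Ft : Type*} [Field L] [Field F] [Algebra L F] [Field k] [Field Ft] [Algebra k Ft]
variable {ι E : Type*} {𝔻 : SemiRedDatum L F k Ft ι E} {α : Type*} [Fintype α] [DecidableEq α]
  {g : ℕ}

/-- **(R3) in `StepPreN` form.** -/
theorem exists_b [Infinite k] [Finite ι] [Nonempty ι] [Finite E] (C : CondFamN 𝔻 α)
    (S : NSSystemN 𝔻 g) (disj : ∀ a i, (C.c a, C.Q a) ≠ (S.c i, S.Q i))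
    (hl : Fintype.card α + 1 ≤ Module.finrank L (riemannRochSpace (C.D0 + S.D0))) :
    ∃ (b : α → F) (hG : ∀ j v, b j ∈ 𝔻.G v) (hL : ∀ j, b j ∈ riemannRochSpace (C.D0 + S.D0)),
      IsUnit (StepPreN.polar ⟨C, S, disj, b, hG, hL⟩).det := by
  obtain ⟨b, hb, M, _, hM, hMv⟩ :=
    Fermat.Agent.ORD.FAMN.PolarOrthN3.exists_polar_family S C disj hl
  refine ⟨fun j => (b j : F), fun j v => 𝔻.mem_Gall.mp (b j).2 v, hb, ?_⟩
  have : StepPreN.polar ⟨C, S, disj, fun j => (b j : F), fun j v => 𝔻.mem_Gall.mp (b j).2 v, hb⟩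
      = M := by
    ext a j
    rw [hMv a j]
    rfl
  rw [this]
  exact hM

/-- **(R3)**: a `StepPreN` with the given centres and residual system and unit polar determinant. -/
theorem exists_stepPre [Infinite k] [Finite ι] [Nonempty ι] [Finite E] (C : CondFamN 𝔻 α)
    (S : NSSystemN 𝔻 g) (disj : ∀ a i, (C.c a, C.Q a) ≠ (S.c i, S.Q i))
    (hl : Fintype.card α + 1 ≤ Module.finrank L (riemannRochSpace (C.D0 + S.D0))) :
    ∃ X : StepPreN 𝔻 α g, X.C = C ∧ X.S = S ∧ IsUnit X.polar.det := by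
  obtain ⟨b, hG, hL, h⟩ := exists_b C S disj hl
  exact ⟨⟨C, S, disj, b, hG, hL⟩, rfl, rfl, h⟩

/-- the dimension hypothesis from Riemann's inequality (genus form). -/
theorem card_add_one_le (C : CondFamN 𝔻 α) (S : NSSystemN 𝔻 g)
    (hRiem : ∀ E' : Divisor L F,
      Divisor.degree E' + 1 - (g : ℤ) ≤ (Module.finrank L (riemannRochSpace E') : ℤ)) :
    Fintype.card α + 1 ≤ Module.finrank L (riemannRochSpace (C.D0 + S.D0)) :=
  card_add_one_le_finrank S C hRiem

/-- **(R3)** from Riemann's inequality. -/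
theorem exists_stepPre_of_riemann [Infinite k] [Finite ι] [Nonempty ι] [Finite E]
    (C : CondFamN 𝔻 α) (S : NSSystemN 𝔻 g)
    (disj : ∀ a i, (C.c a, C.Q a) ≠ (S.c i, S.Q i))
    (hRiem : ∀ E' : Divisor L F,
      Divisor.degree E' + 1 - (g : ℤ) ≤ (Module.finrank L (riemannRochSpace E') : ℤ)) :
    ∃ X : StepPreN 𝔻 α g, X.C = C ∧ X.S = S ∧ IsUnit X.polar.det :=
  exists_stepPre C S disj (card_add_one_le C S hRiem)

end

end Fermat.Agent.ORD.FAMN.PolarStepN6
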