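/-
Programme ORD (S33), chapter FAMN (helper6): **existence of the chain data** of `ChainN6` — port of
helper4's `FF/FAM/ChainExists4` + `ChainGen4`: three non-special systems with pairwise distinct discs and
Riemann's inequality give a `ChainDataN` with the four polar conditions (`PolarStepN6.exists_b` for the
four steps A, B, C, D); and chain data over ANY given coordinate system `S0` (two auxiliary systems from
helper9's `NSFinalN9.exists_nsSystemsN` with `Bad` = the discs of `S0`).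
-/
import Mathlib
import Fermat.Agent.ORD.FAMN.PolarStepN6
import Fermat.Agent.ORD.FAMN.ChainN6
import Fermat.Agent.ORD.NSN.NSFinalN9
import Fermat.Agent.FF.FAM.ChainGen4

set_option autoImplicit false
set_option linter.unusedSectionVars false
set_option linter.style.longLine false

namespace Fermat.Agent.ORD.FAMN.ChainExistsN6

open AlgebraicCurve KaehlerDifferential Fermat.Agent.X0.FF Fermat.Agent.RR.LSpace
  Fermat.Agent.MW.EMB.Value6
open Fermat.Agent.ORD.SEMIRED.SemiRedDatum9 Fermat.Agent.ORD.REDN.DiscC9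
open Fermat.Agent.ORD.KERN.KerDefs9 Fermat.Agent.ORD.FAMN.CondN3
open Fermat.Agent.ORD.FAMN.BridgeExactN6 Fermat.Agent.ORD.FAMN.ChainN6
open Fermat.Agent.ORD.FAMN.PolarStepN6
open Fermat.Agent.ORD.NSN.NSInputN9 Fermat.Agent.ORD.NSN.NSExistsN9 Fermat.Agent.ORD.NSN.NSFinalN9

noncomputable section

variable {L F k Ft : Type*} [Field L] [Field F] [Algebra L F] [Field k] [Field Ft] [Algebra k Ft]
variable {ι E : Type*} {𝔻 : SemiRedDatum L F k Ft ι E} {g : ℕ}

section Exists

variable [Infinite k] [Finite ι] [Nonempty ι] [Finite E]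

/-- **the four polar families**: chain data with all four polar conditions, from three non-special
systems with pairwise distinct discs and the dimension bounds `l(B) ≥ |α| + 1`. -/
theorem exists_chainData_of_finrank (S0 S0' S1 : NSSystemN 𝔻 g)
    (d01 : ∀ i j, (S0.c i, S0.Q i) ≠ (S1.c j, S1.Q j))
    (d0'1 : ∀ i j, (S0'.c i, S0'.Q i) ≠ (S1.c j, S1.Q j))
    (d00' : ∀ i j, (S0.c i, S0.Q i) ≠ (S0'.c j, S0'.Q j))
    (hlA : Fintype.card (Fin g) + 1 ≤
      Module.finrank L (riemannRochSpace ((CondFamN.ofNS S0).D0 + S1.D0)))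
    (hlB : Fintype.card (Fin g) + 1 ≤
      Module.finrank L (riemannRochSpace ((CondFamN.ofNS S1).D0 + S0'.D0)))
    (hlC : Fintype.card (Fin g ⊕ Fin g) + 1 ≤
      Module.finrank L (riemannRochSpace
        ((sumFam (CondFamN.ofNS S0) (CondFamN.ofNS S0') d00').D0 + S1.D0)))
    (hlD : Fintype.card (Fin g) + 1 ≤
      Module.finrank L (riemannRochSpace ((CondFamN.ofNS S1).D0 + S0.D0))) :
    ∃ K : ChainDataN 𝔻 g, K.S0 = S0 ∧ K.S0' = S0' ∧ K.S1 = S1 ∧ K.Polar := by
  obtain ⟨bA, bA_G, bA_L, hA⟩ := exists_b (CondFamN.ofNS S0) S1 d01 hlA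
  obtain ⟨bB, bB_G, bB_L, hB⟩ := exists_b (CondFamN.ofNS S1) S0' (fun i j => (d0'1 j i).symm) hlB
  obtain ⟨bC, bC_G, bC_L, hC⟩ := exists_b (sumFam (CondFamN.ofNS S0) (CondFamN.ofNS S0') d00') S1
    (fun x j => match x with
      | Sum.inl a => d01 a j
      | Sum.inr a => d0'1 a j) hlC
  obtain ⟨bD, bD_G, bD_L, hD⟩ := exists_b (CondFamN.ofNS S1) S0 (fun i j => (d01 j i).symm) hlD
  exact ⟨⟨S0, S0', S1, d01, d0'1, d00', bA, bA_G, bA_L, bB, bB_G, bB_L, bC, bC_G, bC_L,
    bD, bD_G, bD_L⟩, rfl, rfl, rfl, ⟨hA, hB, hC, hD⟩⟩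

/-- **the four polar families** from Riemann's inequality (genus form). -/
theorem exists_chainData (S0 S0' S1 : NSSystemN 𝔻 g)
    (d01 : ∀ i j, (S0.c i, S0.Q i) ≠ (S1.c j, S1.Q j))
    (d0'1 : ∀ i j, (S0'.c i, S0'.Q i) ≠ (S1.c j, S1.Q j))
    (d00' : ∀ i j, (S0.c i, S0.Q i) ≠ (S0'.c j, S0'.Q j))
    (hRiem : ∀ E' : Divisor L F,
      Divisor.degree E' + 1 - (g : ℤ) ≤ (Module.finrank L (riemannRochSpace E') : ℤ)) :
    ∃ K : ChainDataN 𝔻 g, K.S0 = S0 ∧ K.S0' = S0' ∧ K.S1 = S1 ∧ K.Polar :=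
  exists_chainData_of_finrank S0 S0' S1 d01 d0'1 d00'
    (card_add_one_le _ _ hRiem) (card_add_one_le _ _ hRiem) (card_add_one_le _ _ hRiem)
    (card_add_one_le _ _ hRiem)

/-- variant with a single pairwise-distinctness hypothesis on a family of three systems (the shape
of `NSFinalN9.exists_nsSystemsN`). -/
theorem exists_chainData_of_three (S : Fin 3 → NSSystemN 𝔻 g)
    (hdis : ∀ a b i j, ((S a).c i, (S a).Q i) = ((S b).c j, (S b).Q j) → a = b ∧ i = j)
    (hRiem : ∀ E' : Divisor L F,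
      Divisor.degree E' + 1 - (g : ℤ) ≤ (Module.finrank L (riemannRochSpace E') : ℤ)) :
    ∃ K : ChainDataN 𝔻 g, K.S0 = S 0 ∧ K.S0' = S 1 ∧ K.S1 = S 2 ∧ K.Polar :=
  exists_chainData (S 0) (S 1) (S 2)
    (fun i j h => absurd (hdis 0 2 i j h).1 (by decide))
    (fun i j h => absurd (hdis 1 2 i j h).1 (by decide))
    (fun i j h => absurd (hdis 0 1 i j h).1 (by decide)) hRiem

end Exists

section Gen

variable [IsAlgClosed L] [CharZero L] {x : F} [HasCanonicalDivisor (K := L) (F := F)]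
variable [Infinite k] [Finite ι] [Nonempty ι] [Finite E]

/-- **chain data over a given coordinate system** (Riemann's inequality and the weak form `hRR` are
`FF/FAM/ChainGen4.riemann_genus hx`, `hRR_genus hx`: they do not involve the datum). -/
theorem exists_chainData_extend (hx : IsGen L x) (hlink : DLink 𝔻)
    (hns : ∀ I : NSInputN 𝔻 (genus L F), I.IsNonSpecial)
    (S0 : NSSystemN 𝔻 (genus L F)) :
    ∃ K : ChainDataN 𝔻 (genus L F), K.S0 = S0 ∧ K.Polar := by
  classical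
  let Bad : Set (ι × Place k Ft) := Set.range fun i => (S0.c i, S0.Q i)
  have hBadfin : Bad.Finite := Set.finite_range _
  have hBad0 : ∀ i, (S0.c i, S0.Q i) ∈ Bad := fun i => ⟨i, rfl⟩
  obtain ⟨S, c0, Q0, _, _, hBad, hdis, _⟩ := exists_nsSystemsN hx hlink hns Bad hBadfin 2
  obtain ⟨K, h0, _, _, hK⟩ := exists_chainData S0 (S 0) (S 1)
    (fun i j h => hBad 1 j (h ▸ hBad0 i))
    (fun i j h => absurd (hdis 0 1 i j h).1 (by decide))
    (fun i j h => hBad 0 j (h ▸ hBad0 i))
    (Fermat.Agent.FF.FAM.ChainGen4.riemann_genus hx)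
  exact ⟨K, h0, hK⟩

end Gen

end

end Fermat.Agent.ORD.FAMN.ChainExistsN6
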