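import Mathlib
import Fermat.Agent.ORD.FAMN.ChainN6
import Fermat.Agent.FF.FAM.StepEval8

set_option autoImplicit false
set_option linter.unusedSectionVars false
set_option linter.style.longLine false

/-!
# The bridge modulo an ideal on a semistable datum

Programme ORD (S33), chapter FAMN (helper6): port of helper8's `FF/FAM/BridgeNil8`.

`𝔞` an ideal of `A = 𝔻.B.A` modulo which every element of `m_A` is nilpotent, `π : A → A ⧸ 𝔞`.  For a
geometric simple step `X : StepPreN 𝔻 α g` with `Rel X T T''`, the images `π (T'' q)` are the nilpotent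
evaluations at `π ∘ T` of the formal roots `zeta q` of the step data of `X`.
-/

namespace Fermat.Agent.ORD.FAMN.BridgeNilN6

open AlgebraicCurve Fermat.Agent.X0.FF Fermat.Agent.RR.LSpace Fermat.Agent.MW.EMB.Value6
open Fermat.Agent.ORD.SEMIRED.SemiRedDatum9 Fermat.Agent.ORD.REDN.DiscC9
open Fermat.Agent.ORD.REDN.ExpandC5
open Fermat.Agent.ORD.KERN.KerDefs9 Fermat.Agent.ORD.KERN.KerN9 Fermat.Agent.FF.FAM.Step8
open Fermat.Agent.ORD.FAMN.CondN3 Fermat.Agent.ORD.FAMN.BridgeExactN6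
open Fermat.Agent.ORD.FAMN.ChainN6 Fermat.Agent.FF.FAM.NilEval8 Fermat.Agent.FF.FAM.StepEval8

noncomputable section

variable {L F k Ft : Type*} [Field L] [Field F] [Algebra L F] [Field k] [Field Ft] [Algebra k Ft]
variable {ι E : Type*} {𝔻 : SemiRedDatum L F k Ft ι E}

/-- every element of the maximal ideal is nilpotent modulo `𝔞` -/
def NilModN (𝔞 : Ideal 𝔻.B.A) : Prop :=
  ∀ c : 𝔻.B.A, c ∈ IsLocalRing.maximalIdeal 𝔻.B.A → IsNilpotent (Ideal.Quotient.mk 𝔞 c)

/-- **values on a disc modulo `𝔞`**: the image of the value of `s` at a place of the disc is the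
nilpotent evaluation of the expansion of `s` at the image of the coordinate. -/
theorem mk_evN_eq_nilEval₁ (𝔞 : Ideal 𝔻.B.A) {v : ι} {Q : Place k Ft}
    (c : Chart (𝔻.comp v) Q) {P' : Place L F}
    (hP' : (𝔻.comp v).r P' = some Q) (hnil : IsNilpotent (Ideal.Quotient.mk 𝔞 (evN hP' c.uR)))
    (s : discRing (𝔻.comp v) Q) :
    Ideal.Quotient.mk 𝔞 (evN hP' s) =
      nilEval₁ (Ideal.Quotient.mk 𝔞 (evN hP' c.uR)) (expandN c s) := by
  obtain ⟨N, hN⟩ := hnil
  rw [nilEval₁_eq_sum ⟨N, hN⟩ hN, evN_expansion c hP' s N, map_add, map_mul, map_pow, hN,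
    zero_mul, add_zero, map_sum]
  refine Finset.sum_congr rfl fun n _ => ?_
  rw [map_mul, map_pow, coeff_expandN]
  rfl

variable {α : Type*} [Fintype α] [DecidableEq α] {g : ℕ} (X : StepPreN 𝔻 α g)

/-- **the bridge for one step.** -/
theorem mk_eq_nilEval_zeta (hpolar : IsUnit X.polar.det) (𝔞 : Ideal 𝔻.B.A) (h𝔞 : NilModN 𝔞)
    {T : α → mA 𝔻} {T'' : Fin g → mA 𝔻} (hrel : Rel X T T'') (q : Fin g) :
    Ideal.Quotient.mk 𝔞 (T'' q : 𝔻.B.A) =
      nilEval (fun a => Ideal.Quotient.mk 𝔞 (T a : 𝔻.B.A)) ((X.stepData hpolar).zeta q) := by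
  have hθ : ∀ a, IsNilpotent (Ideal.Quotient.mk 𝔞 (T a : 𝔻.B.A)) := fun a => h𝔞 _ (T a).2
  have hz : ∀ q, IsNilpotent (Ideal.Quotient.mk 𝔞 (T'' q : 𝔻.B.A)) := fun q => h𝔞 _ (T'' q).2
  refine eval_eq_of_rel (X.stepData hpolar) hθ (fun j => Ideal.Quotient.mk 𝔞 (X.mu T j))
    (fun q => Ideal.Quotient.mk 𝔞 (T'' q : 𝔻.B.A)) ?_ ?_ hz ?_ q
  · show Ideal.Quotient.mk 𝔞 (X.mu T none) = 1
    rw [X.mu_none, map_one]
  · intro a
    have h := congrArg (Ideal.Quotient.mk 𝔞) (X.mu_spec hpolar T a)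
    rw [map_sum, map_zero] at h
    rw [← h]
    refine Finset.sum_congr rfl fun j _ => ?_
    rw [map_mul]
    congr 1
    have hc : evN (X.C.comp_r_pt a (T a)) (chartC X.C a).uR = (T a : 𝔻.B.A) :=
      evN_uR_pt X.C a (T a)
    have := mk_evN_eq_nilEval₁ 𝔞 (chartC X.C a) (X.C.comp_r_pt a (T a))
      (by rw [hc]; exact hθ a) (X.hC a j)
    rw [hc] at this
    exact this.symm
  · intro q
    have h := congrArg (Ideal.Quotient.mk 𝔞) (hrel.2 q)
    rw [map_sum, map_zero] at h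
    rw [← h]
    refine Finset.sum_congr rfl fun j _ => ?_
    rw [map_mul]
    congr 1
    have hc : evN (X.S.comp_r_pt q (T'' q)) (X.chartS q).uR = (T'' q : 𝔻.B.A) := by
      apply Subtype.ext
      rw [coe_evN]
      exact X.S.valF_pt q (T'' q)
    have := mk_evN_eq_nilEval₁ 𝔞 (X.chartS q) (X.S.comp_r_pt q (T'' q))
      (by rw [hc]; exact hz q) (X.hS q j)
    rw [hc] at this
    exact this.symm

end

end Fermat.Agent.ORD.FAMN.BridgeNilN6
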