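import Mathlib
import Fermat.Agent.ORD.FAMN.BridgeNilN6
import Fermat.Agent.FF.FAM.Law8

set_option autoImplicit false
set_option linter.unusedSectionVars false
set_option linter.style.longLine false

/-!
# The formal group law of the kernel of reduction of a semistable datum

Programme ORD (S33), chapter FAMN (helper6): port of helper8's `FF/FAM/Law8` (the datum-free part —
`comp₂`, `compFam`, `nilEval_comp₂`, `constantCoeff_comp₂` — is imported from `Law8` as is).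

From the chain data `K : ChainDataN 𝔻 g` (three non-special systems, four polar families) we build
* `Phi` : the transition series `S0 → S0'` (steps A, B),
* `SumSer` : the sum series (steps C, D),
* `Flaw := SumSer(X, Phi(Y))` : the group law in the coordinates of `S0`,
* `F3 := F(X, F(Y, Z))` : the three-fold law,
and prove that modulo any ideal `𝔞` with `NilModN 𝔞` the coordinates of sums of kernel points are the
nilpotent evaluations of these series.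
-/

namespace Fermat.Agent.ORD.FAMN.LawN6

open AlgebraicCurve Fermat.Agent.X0.FF Fermat.Agent.RR.LSpace Fermat.Agent.MW.EMB.Value6
open Fermat.Agent.ORD.SEMIRED.SemiRedDatum9 Fermat.Agent.ORD.REDN.DiscC9
open Fermat.Agent.ORD.REDN.ExpandC5
open Fermat.Agent.ORD.KERN.KerDefs9 Fermat.Agent.ORD.KERN.KerN9 Fermat.Agent.FF.FAM.Step8
open Fermat.Agent.ORD.FAMN.CondN3 Fermat.Agent.ORD.FAMN.BridgeExactN6
open Fermat.Agent.ORD.FAMN.ChainN6 Fermat.Agent.FF.FAM.NilEval8 Fermat.Agent.FF.FAM.StepEval8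
open Fermat.Agent.ORD.FAMN.BridgeNilN6
open Fermat.Agent.FF.FAM.Law8 (comp₂ compFam constantCoeff_comp₂ nilEval_comp₂)

noncomputable section

variable {L F k Ft : Type*} [Field L] [Field F] [Algebra L F] [Field k] [Field Ft] [Algebra k Ft]
variable {ι E : Type*} {𝔻 : SemiRedDatum L F k Ft ι E} {g : ℕ} (K : ChainDataN 𝔻 g)
  (hK : K.Polar)

/-! ### the series -/

/-- residual roots of step A -/
def zA : Fin g → MvPowerSeries (Fin g) 𝔻.B.A := (K.XA.stepData hK.hA).zeta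
/-- residual roots of step B -/
def zB : Fin g → MvPowerSeries (Fin g) 𝔻.B.A := (K.XB.stepData hK.hB).zeta
/-- residual roots of step C -/
def zC : Fin g → MvPowerSeries (Fin g ⊕ Fin g) 𝔻.B.A := (K.XC.stepData hK.hC).zeta
/-- residual roots of step D -/
def zD : Fin g → MvPowerSeries (Fin g) 𝔻.B.A := (K.XD.stepData hK.hD).zeta

theorem constantCoeff_zA (q : Fin g) : MvPowerSeries.constantCoeff (zA K hK q) = 0 :=
  (K.XA.stepData hK.hA).constantCoeff_zeta q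
theorem constantCoeff_zB (q : Fin g) : MvPowerSeries.constantCoeff (zB K hK q) = 0 :=
  (K.XB.stepData hK.hB).constantCoeff_zeta q
theorem constantCoeff_zC (q : Fin g) : MvPowerSeries.constantCoeff (zC K hK q) = 0 :=
  (K.XC.stepData hK.hC).constantCoeff_zeta q
theorem constantCoeff_zD (q : Fin g) : MvPowerSeries.constantCoeff (zD K hK q) = 0 :=
  (K.XD.stepData hK.hD).constantCoeff_zeta q

/-- the transition series `S0 → S0'` -/
def Phi (i : Fin g) : MvPowerSeries (Fin g) 𝔻.B.A := MvPowerSeries.subst (zA K hK) (zB K hK i)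

/-- the sum series -/
def SumSer (i : Fin g) : MvPowerSeries (Fin g ⊕ Fin g) 𝔻.B.A :=
  MvPowerSeries.subst (zC K hK) (zD K hK i)

theorem constantCoeff_Phi (i : Fin g) : MvPowerSeries.constantCoeff (Phi K hK i) = 0 :=
  MvPowerSeries.constantCoeff_subst_eq_zero
    (MvPowerSeries.hasSubst_of_constantCoeff_zero (constantCoeff_zA K hK))
    (constantCoeff_zA K hK) (constantCoeff_zB K hK i)

theorem constantCoeff_SumSer (i : Fin g) : MvPowerSeries.constantCoeff (SumSer K hK i) = 0 :=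
  MvPowerSeries.constantCoeff_subst_eq_zero
    (MvPowerSeries.hasSubst_of_constantCoeff_zero (constantCoeff_zC K hK))
    (constantCoeff_zC K hK) (constantCoeff_zD K hK i)

/-- **the formal group law** in the coordinates of `S0` -/
def Flaw (i : Fin g) : MvPowerSeries (Fin g ⊕ Fin g) 𝔻.B.A := comp₂ (SumSer K hK i) (Phi K hK)

theorem constantCoeff_Flaw (i : Fin g) : MvPowerSeries.constantCoeff (Flaw K hK i) = 0 :=
  constantCoeff_comp₂ _ _ (constantCoeff_Phi K hK) (constantCoeff_SumSer K hK i)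

/-- **the three-fold law** `F(X, F(Y, Z))` -/
def F3 (i : Fin g) : MvPowerSeries (Fin g ⊕ (Fin g ⊕ Fin g)) 𝔻.B.A :=
  comp₂ (Flaw K hK i) (Flaw K hK)

theorem constantCoeff_F3 (i : Fin g) : MvPowerSeries.constantCoeff (F3 K hK i) = 0 :=
  constantCoeff_comp₂ _ _ (constantCoeff_Flaw K hK) (constantCoeff_Flaw K hK i)

/-! ### the law modulo an ideal -/

variable (𝔞 : Ideal 𝔻.B.A)

/-- the image of a coordinate vector modulo `𝔞` -/
def mkv {β : Type*} (𝔞 : Ideal 𝔻.B.A) (T : β → mA 𝔻) : β → 𝔻.B.A ⧸ 𝔞 :=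
  fun a => Ideal.Quotient.mk 𝔞 (T a : 𝔻.B.A)

theorem isNilpotent_mkv (h𝔞 : NilModN 𝔞) {β : Type*} (T : β → mA 𝔻) (a : β) :
    IsNilpotent (mkv 𝔞 T a) :=
  h𝔞 _ (T a).2

theorem mkv_sum_elim {β β' : Type*} (T : β → mA 𝔻) (T' : β' → mA 𝔻) :
    mkv 𝔞 (Sum.elim T T') = Sum.elim (mkv 𝔞 T) (mkv 𝔞 T') := by
  funext x
  rcases x with a | a <;> rfl

variable [Finite ι] [Nonempty ι]

/-- **the group law modulo `𝔞`** (two-fold). -/
theorem mk_coord_add (h𝔞 : NilModN 𝔞) {T T' T''' : Fin g → mA 𝔻}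
    (hkap : K.S0.kap T + K.S0.kap T' = K.S0.kap T''') (i : Fin g) :
    mkv 𝔞 T''' i = nilEval (Sum.elim (mkv 𝔞 T) (mkv 𝔞 T')) (Flaw K hK i) := by
  obtain ⟨ζ, T1, ζ', T3, hA, hB, hC, hD, hk⟩ := K.exists_chain hK T T'
  have h3 : T3 = T''' := kap_injective K.S0 (hk.symm.trans hkap)
  subst h3
  -- the four bridges
  have eA : ∀ q, mkv 𝔞 ζ q = nilEval (mkv 𝔞 T') (zA K hK q) :=
    fun q => mk_eq_nilEval_zeta K.XA hK.hA 𝔞 h𝔞 hA q
  have eB : ∀ j, mkv 𝔞 T1 j = nilEval (mkv 𝔞 ζ) (zB K hK j) :=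
    fun j => mk_eq_nilEval_zeta K.XB hK.hB 𝔞 h𝔞 hB j
  have eC : ∀ q, mkv 𝔞 ζ' q = nilEval (mkv 𝔞 (Sum.elim T T1)) (zC K hK q) :=
    fun q => mk_eq_nilEval_zeta K.XC hK.hC 𝔞 h𝔞 hC q
  have eD : ∀ j, mkv 𝔞 T3 j = nilEval (mkv 𝔞 ζ') (zD K hK j) :=
    fun j => mk_eq_nilEval_zeta K.XD hK.hD 𝔞 h𝔞 hD j
  -- transition
  have eT1 : mkv 𝔞 T1 = fun j => nilEval (mkv 𝔞 T') (Phi K hK j) := by
    funext j
    rw [eB j, Phi, nilEval_subst_of_constantCoeff_zero (isNilpotent_mkv 𝔞 h𝔞 T')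
      (constantCoeff_zA K hK)]
    congr 1
    funext q
    exact eA q
  -- sum
  rw [eD i, Flaw, nilEval_comp₂ (isNilpotent_mkv 𝔞 h𝔞 T) (isNilpotent_mkv 𝔞 h𝔞 T') _ _
    (constantCoeff_Phi K hK), SumSer]
  have hnil : ∀ s, IsNilpotent (Sum.elim (mkv 𝔞 T)
      (fun b => nilEval (mkv 𝔞 T') (Phi K hK b)) s) := by
    rw [← eT1, ← mkv_sum_elim]
    exact isNilpotent_mkv 𝔞 h𝔞 _
  rw [nilEval_subst_of_constantCoeff_zero hnil (constantCoeff_zC K hK)]
  congr 1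
  funext q
  rw [eC q, mkv_sum_elim, eT1]

/-- **the three-fold law modulo `𝔞`**. -/
theorem mk_coord_add3 (h𝔞 : NilModN 𝔞) {T T' δ T'' : Fin g → mA 𝔻}
    (hkap : K.S0.kap T + K.S0.kap T' + K.S0.kap δ = K.S0.kap T'') (i : Fin g) :
    mkv 𝔞 T'' i =
      nilEval (Sum.elim (mkv 𝔞 T) (Sum.elim (mkv 𝔞 T') (mkv 𝔞 δ))) (F3 K hK i) := by
  obtain ⟨_, _, _, T1, _, _, _, _, hk1⟩ := K.exists_chain hK T' δ
  have e1 : ∀ j, mkv 𝔞 T1 j = nilEval (Sum.elim (mkv 𝔞 T') (mkv 𝔞 δ)) (Flaw K hK j) :=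
    fun j => mk_coord_add K hK 𝔞 h𝔞 hk1 j
  have hk2 : K.S0.kap T + K.S0.kap T1 = K.S0.kap T'' := by
    rw [← hk1, ← add_assoc]; exact hkap
  have hη : ∀ c, IsNilpotent (Sum.elim (mkv 𝔞 T') (mkv 𝔞 δ) c) := by
    rw [← mkv_sum_elim]
    exact isNilpotent_mkv 𝔞 h𝔞 _
  rw [mk_coord_add K hK 𝔞 h𝔞 hk2 i, F3, nilEval_comp₂ (isNilpotent_mkv 𝔞 h𝔞 T) hη _ _
    (constantCoeff_Flaw K hK)]
  congr 2
  funext j
  exact e1 j

end

end Fermat.Agent.ORD.FAMN.LawN6
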