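/-
PROGRAMME ORD (S33), chapter FAMN (helper3): **the output of F5 on an abstract coordinate system** —
the port of `FF/FAM/Out3` to helper7's `INSTN/KapSys7.KapSys` (no reduction datum at all).

Input (`LawMod K F3`, delivered by `LawN` for the chain data of a semistable datum): series
`F3 i ∈ A⟦X, (Y, Z)⟧` without constant terms computing the three-fold sum of kernel points in
coordinates modulo EVERY ideal `𝔞` of `A` modulo which `m_A` is nil.  Output: the contract
`RationalN7.PSOutN K` consumed by GLUEN/INSTN (`Fs i := F3 i (X ∘ reassoc)`; the rank-one property of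
`A` makes `I ^ N` such an ideal, `I` the ideal generated by the coordinates).
-/
import Mathlib
import Fermat.Agent.FF.FAM.Comp3
import Fermat.Agent.ORD.GLUEN.RationalN7

set_option autoImplicit false
set_option linter.unusedSectionVars false
set_option linter.style.longLine false

namespace Fermat.Agent.ORD.FAMN.OutN3

open Fermat.Agent.FF.FAM.NilEval8 Fermat.Agent.FF.FAM.Comp3
open Fermat.Agent.ORD.INSTN.KapSys7 Fermat.Agent.ORD.GLUEN.RationalN7

noncomputable section

/-! ### re-bracketing of the variables -/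

/-- `(X, (Y, Z)) ↦ ((X, Y), Z)` on the index types -/
def reassoc (g : ℕ) : Fin g ⊕ (Fin g ⊕ Fin g) → Var g :=
  Sum.elim (fun a => Sum.inl (Sum.inl a))
    (Sum.elim (fun b => Sum.inl (Sum.inr b)) (fun c => Sum.inr c))

/-! ### polynomial evaluation modulo an ideal -/

theorem aeval_mk_eq {R : Type*} [CommRing R] {σ : Type*} (𝔞 : Ideal R) (x : σ → R)
    (p : MvPolynomial σ R) :
    MvPolynomial.aeval (fun s => Ideal.Quotient.mk 𝔞 (x s)) p
      = Ideal.Quotient.mk 𝔞 (MvPolynomial.eval x p) := by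
  induction p using MvPolynomial.induction_on with
  | C a => rw [MvPolynomial.aeval_C, MvPolynomial.eval_C]; rfl
  | add p q hp hq => rw [map_add, map_add, map_add, hp, hq]
  | mul_X p s hp => rw [map_mul, map_mul, map_mul, hp, MvPolynomial.aeval_X, MvPolynomial.eval_X]

variable {L : Type} [Field L] {A : ValuationSubring L} {g : ℕ} {X : Type} [AddCommGroup X]

/-- every element of the maximal ideal is nilpotent modulo `𝔞` -/
def NilModA (𝔞 : Ideal A) : Prop :=
  ∀ c : A, c ∈ IsLocalRing.maximalIdeal A → IsNilpotent (Ideal.Quotient.mk 𝔞 c)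

/-- the image of a coordinate vector modulo `𝔞` -/
def mkvA {ι : Type*} (𝔞 : Ideal A) (T : ι → mA A) : ι → A ⧸ 𝔞 :=
  fun a => Ideal.Quotient.mk 𝔞 (T a : A)

/-- **the three-fold law modulo every nil ideal** (the output of `LawN`). -/
def LawMod (K : KapSys A g X) (F3 : Fin g → MvPowerSeries (Fin g ⊕ (Fin g ⊕ Fin g)) A) : Prop :=
  ∀ 𝔞 : Ideal A, NilModA 𝔞 → ∀ T T' δ T'' : Fin g → mA A,
    K.kap T + K.kap T' + K.kap δ = K.kap T'' → ∀ i : Fin g,
      Ideal.Quotient.mk 𝔞 (T'' i : A) =
        nilEval (Sum.elim (mkvA 𝔞 T) (Sum.elim (mkvA 𝔞 T') (mkvA 𝔞 δ))) (F3 i)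

variable (K : KapSys A g X) (F3 : Fin g → MvPowerSeries (Fin g ⊕ (Fin g ⊕ Fin g)) A)

/-- **the series of F5's output**: the three-fold law in the variables `((X, Y), Z)`. -/
def Fs (i : Fin g) : MvPowerSeries (Var g) A :=
  MvPowerSeries.subst (fun s => (MvPowerSeries.X (reassoc g s) : MvPowerSeries (Var g) A)) (F3 i)

variable {F3}

theorem constantCoeff_Fs (hF0 : ∀ i, MvPowerSeries.constantCoeff (F3 i) = 0) (i : Fin g) :
    MvPowerSeries.constantCoeff (Fs F3 i) = 0 :=
  MvPowerSeries.constantCoeff_subst_eq_zero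
    (MvPowerSeries.hasSubst_of_constantCoeff_zero fun _ => MvPowerSeries.constantCoeff_X _)
    (fun _ => MvPowerSeries.constantCoeff_X _) (hF0 i)

variable {K}

/-- the three-fold law modulo `𝔞`, in the variables `((X, Y), Z)`. -/
theorem mk_coord_eq_nilEval_Fs (hlaw : LawMod K F3) (𝔞 : Ideal A) (h𝔞 : NilModA 𝔞)
    {T T' δ T'' : Fin g → mA A}
    (hkap : K.kap T + K.kap T' + K.kap δ = K.kap T'') (i : Fin g) :
    Ideal.Quotient.mk 𝔞 (T'' i : A) =
      nilEval (fun s => Ideal.Quotient.mk 𝔞 (coords T T' δ s)) (Fs F3 i) := by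
  have hθ : ∀ s, IsNilpotent (Ideal.Quotient.mk 𝔞 (coords T T' δ s)) :=
    fun s => h𝔞 _ (coords_mem T T' δ s)
  have h := hlaw 𝔞 h𝔞 T T' δ T'' hkap i
  rw [Fs, nilEval_rename hθ (reassoc g) (F3 i)]
  have hc : (fun s => Ideal.Quotient.mk 𝔞 (coords T T' δ s)) ∘ reassoc g
      = Sum.elim (mkvA 𝔞 T) (Sum.elim (mkvA 𝔞 T') (mkvA 𝔞 δ)) := by
    funext s
    rcases s with a | b | c <;> rfl
  rw [hc]
  exact h

/-- **F5's output**: the contract `PSOutN` from the law modulo nil ideals. -/
theorem psOutN_of_law (hF0 : ∀ i, MvPowerSeries.constantCoeff (F3 i) = 0) (hlaw : LawMod K F3)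
    (hrank : ∀ w : A, w ≠ 0 → ∀ c : A, ¬ IsUnit c → ∃ n : ℕ, c ^ n ∈ Ideal.span {w}) :
    PSOutN K := by
  refine ⟨Fs F3, ?_⟩
  intro T T' δ T'' hkap i N
  set x := coords T T' δ with hx
  set I : Ideal A := Ideal.span (Set.range x) with hI
  rcases Nat.eq_zero_or_pos N with hN0 | hNpos
  · -- `N = 0`
    rw [hN0, pow_zero, Ideal.one_eq_top]
    exact Submodule.mem_top
  by_cases hall : ∀ s, x s = 0
  · -- all coordinates vanish: the three points are `0`
    have hT : T = 0 := by
      funext l; exact Subtype.ext (hall (Sum.inl (Sum.inl l)))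
    have hT' : T' = 0 := by
      funext l; exact Subtype.ext (hall (Sum.inl (Sum.inr l)))
    have hδ : δ = 0 := by
      funext l; exact Subtype.ext (hall (Sum.inr l))
    have hT'' : T'' = 0 := by
      apply K.inj
      rw [← hkap, hT, hT', hδ, K.zero, add_zero, add_zero]
    have hx0 : x = 0 := funext hall
    have hev : MvPolynomial.eval x (MvPowerSeries.truncTotal N (Fs F3 i)) = 0 := by
      rw [hx0, MvPolynomial.eval_zero, MvPolynomial.constantCoeff_eq,
        MvPowerSeries.coeff_truncTotal _ (by simpa using hNpos)]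
      exact constantCoeff_Fs hF0 i
    rw [hev, hT'']
    simp
  · -- some coordinate `w` is nonzero: `I ^ N` is `NilMod`
    rw [not_forall] at hall
    obtain ⟨s0, hs0⟩ := hall
    have hwI : x s0 ∈ I := Ideal.subset_span ⟨s0, rfl⟩
    have hwN : (x s0) ^ N ≠ 0 := pow_ne_zero N hs0
    have h𝔞 : NilModA (I ^ N) := by
      intro c hc
      have hcu : ¬ IsUnit c := by
        rwa [IsLocalRing.mem_maximalIdeal, mem_nonunits_iff] at hc
      obtain ⟨n, hn⟩ := hrank _ hwN c hcu
      refine ⟨n, ?_⟩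
      rw [← map_pow, Ideal.Quotient.eq_zero_iff_mem]
      exact (Ideal.span_le.mpr (Set.singleton_subset_iff.mpr (Ideal.pow_mem_pow hwI N))) hn
    have hθ : ∀ s, IsNilpotent (Ideal.Quotient.mk (I ^ N) (x s)) :=
      fun s => h𝔞 _ (coords_mem T T' δ s)
    have h1 := mk_coord_eq_nilEval_Fs hlaw (I ^ N) h𝔞 hkap i
    -- the evaluation is the evaluation of the truncation
    have h2 := nilEval_sub_aeval_truncTotal_mem (W := A) hθ (I.map (Ideal.Quotient.mk (I ^ N)))
      (fun s => Ideal.mem_map_of_mem _ (Ideal.subset_span ⟨s, rfl⟩)) N (Fs F3 i)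
    rw [← Ideal.map_pow, Ideal.map_quotient_self, Ideal.mem_bot, sub_eq_zero] at h2
    rw [← Ideal.Quotient.eq_zero_iff_mem, map_sub, sub_eq_zero, h1, h2]
    exact aeval_mk_eq (I ^ N) x _

end

end Fermat.Agent.ORD.FAMN.OutN3
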