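/-
PROGRAMME ORD (S33), chapter FAMN (helper3): **the closing theorem of F5 on a semistable datum** — the
port of `FF/FAM/Close3`.

For **every** non-special system `S` of `genus L F` centres on a semistable datum the contract
`RationalN7.PSOutN (KapInst7.kapSys S hRR)` holds: chain data over `S` (two auxiliary systems off the
discs of `S` from `NSFinalN9`, the four polar families from Riemann's inequality and the simultaneous
orthonormalisation: helper6's `ChainExistsN6.exists_chainData_extend`), the three-fold law modulo nil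
ideals (`LawN6.mk_coord_add3`), and `OutN3.psOutN_of_law`.  Plugged into helper7's
`MainN7.exists_approxGenN` this gives the approximate Hopf generating set with `m_A`-valued generators
on every finite `Γ`-module embedded equivariantly in the kernel of reduction, with NO hypothesis on F5
left (`exists_approxGenN_all`).
-/
import Mathlib
import Fermat.Agent.ORD.FAMN.OutN3
import Fermat.Agent.ORD.FAMN.LawN6
import Fermat.Agent.ORD.FAMN.ChainExistsN6
import Fermat.Agent.ORD.INSTN.MainN7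

set_option autoImplicit false
set_option linter.unusedSectionVars false
set_option linter.style.longLine false

namespace Fermat.Agent.ORD.FAMN.CloseN3

open AlgebraicCurve Fermat.Agent.X0.FF Fermat.Agent.RR.LSpace Fermat.Agent.MW.EMB.Value6
open Fermat.Agent.ORD.SEMIRED.SemiRedDatum9
open Fermat.Agent.ORD.KERN.KerDefs9 Fermat.Agent.ORD.KERN.KerN9 Fermat.Agent.ORD.KERN.KerGalN9
open Fermat.Agent.ORD.NSN.NSInputN9 Fermat.Agent.ORD.NSN.NSExistsN9
open Fermat.Agent.ORD.INSTN.KapSys7 Fermat.Agent.ORD.INSTN.KapInst7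
open Fermat.Agent.ORD.GLUEN.RationalN7
open Fermat.Agent.ORD.FAMN.ChainN6 Fermat.Agent.ORD.FAMN.OutN3

noncomputable section

variable {L F : Type} {k Ft : Type*} [Field L] [Field F] [Algebra L F] [Field k] [Field Ft]
  [Algebra k Ft]
variable {ι E : Type*} {𝔻 : SemiRedDatum L F k Ft ι E} {g : ℕ}

/-- **F5's output for the coordinate system of a chain data** with its four polar conditions. -/
theorem psOutN_of_chain [Finite ι] [Nonempty ι] (K : ChainDataN 𝔻 g) (hK : K.Polar)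
    (hRR : ∀ E' : Divisor L F, Divisor.degree E' = g → ∃ f : F, f ≠ 0 ∧ ∀ P, -(E' P) ≤ P.ord f)
    (hrank : ∀ w : 𝔻.B.A, w ≠ 0 → ∀ c : 𝔻.B.A, ¬ IsUnit c → ∃ n : ℕ, c ^ n ∈ Ideal.span {w}) :
    PSOutN (kapSys K.S0 hRR) :=
  psOutN_of_law (K := kapSys K.S0 hRR) (F3 := Fermat.Agent.ORD.FAMN.LawN6.F3 K hK)
    (fun i => Fermat.Agent.ORD.FAMN.LawN6.constantCoeff_F3 K hK i)
    (fun 𝔞 h𝔞 _ _ _ _ hkap i => Fermat.Agent.ORD.FAMN.LawN6.mk_coord_add3 K hK 𝔞 h𝔞 hkap i) hrank

variable [IsAlgClosed L] [CharZero L] {x : F} [HasCanonicalDivisor (K := L) (F := F)] [Infinite k]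
  [Finite ι] [Nonempty ι] [Finite E]

/-- **the closing theorem of F5 on a semistable datum**: the power series contract for every
non-special system of `genus L F` centres. -/
theorem psOutN_all (hx : IsGen L x) (hlink : DLink 𝔻)
    (hns : ∀ I : NSInputN 𝔻 (genus L F), I.IsNonSpecial)
    (hrank : ∀ w : 𝔻.B.A, w ≠ 0 → ∀ c : 𝔻.B.A, ¬ IsUnit c → ∃ n : ℕ, c ^ n ∈ Ideal.span {w})
    (hRR : ∀ E' : Divisor L F, Divisor.degree E' = (genus L F : ℤ) →
      ∃ f : F, f ≠ 0 ∧ ∀ P, -(E' P) ≤ P.ord f)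
    (S : NSSystemN 𝔻 (genus L F)) : PSOutN (kapSys S hRR) := by
  obtain ⟨K, hK0, hK⟩ :=
    Fermat.Agent.ORD.FAMN.ChainExistsN6.exists_chainData_extend hx hlink hns S
  subst hK0
  exact psOutN_of_chain K hK hRR hrank

variable {Γ : Type} [Group Γ] (ρ : Γ →* SemilinearAut L F) [MulSemiringAction Γ L]

/-- **`MainN7.exists_approxGenN` with F5 plugged in**: the approximate Hopf generating set over `Γ`,
with all generators `m_A`-valued, on any finite `Γ`-module embedded equivariantly in the kernel of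
reduction of a semistable datum — no hypothesis on F5 left. -/
theorem exists_approxGenN_all (hx : IsGen L x) (hlink : DLink 𝔻)
    (hns : ∀ I : NSInputN 𝔻 (genus L F), I.IsNonSpecial)
    (base : ∀ (γ : Γ) (a : L), SemilinearAut.baseAut (ρ γ) a = γ • a)
    (triv : ∀ (γ : Γ) (P : Place L F), 𝔻.r (ρ γ • P) = 𝔻.r P)
    (Bad : Set (ι × Place k Ft)) (hBad : Bad.Finite)
    (hunif : ∀ (v : ι) (Q : Place k Ft), 𝔻.IsSm v Q → (v, Q) ∉ Bad →
      ∃ u : 𝔻.G v, 𝔻.PoleFree (u : F) v Q ∧ Q.ord (𝔻.red v u) = 1 ∧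
        ∀ γ : Γ, ρ γ • (u : F) = (u : F))
    {M : Type} [AddCommGroup M] [Finite M] (act : Γ → M → M) (emb : M →+ Pic0 L F)
    (emb_inj : Function.Injective emb) (emb_act : ∀ (γ : Γ) (x : M), emb (act γ x) = ρ γ • emb x)
    (hker : ∀ x : M, emb x ∈ kerRed 𝔻)
    [Infinite 𝔻.B.A] {W : Type} [CommRing W] [Algebra W L]
    (hΓA : ∀ (γ : Γ) (a : L), a ∈ 𝔻.B.A → γ • a ∈ 𝔻.B.A)
    (hsmall : Fermat.Agent.FF.GLUE.UniqSeries7.Small (IsLocalRing.maximalIdeal 𝔻.B.A))
    (hrank : ∀ w : 𝔻.B.A, w ≠ 0 → ∀ c : 𝔻.B.A, ¬ IsUnit c → ∃ n : ℕ, c ^ n ∈ Ideal.span {w})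
    (hWA : ∀ w : W, algebraMap W L w ∈ 𝔻.B.A) (hWinj : Function.Injective (algebraMap W L))
    (hWfix : ∀ a : 𝔻.B.A, (∀ γ : Γ, γ • (a : L) = (a : L)) →
      ∃ w : W, algebraMap W L w = (a : L)) :
    ∃ S0 : Set (M → L), Fermat.Agent.FF.BASE.ApproxGen2.ApproxGen W 𝔻.B.A.toSubring act S0 ∧
      ∀ s ∈ S0, ∀ m : M, ∃ c : mA 𝔻.B.A, s m = ((c : 𝔻.B.A) : L) :=
  Fermat.Agent.ORD.INSTN.MainN7.exists_approxGenN ρ hx hlink hns base triv Bad hBad hunif act emb
    emb_inj emb_act hker hΓA hsmall hrank hWA hWinj hWfix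
    (fun S _ => psOutN_all hx hlink hns hrank _ S)

end

end Fermat.Agent.ORD.FAMN.CloseN3
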