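/-
PROGRAMME ORD (S33), chapter FAMN (helper3): **the output of O4 in the shape (R1) of T/iface/ORD-FINAL**
— a `Γ`-fixed non-special system of `genus L F` centres on a semistable datum together with the power
series contract `PSOutN` of its coordinate system (`MainN7.exists_admissible` + `CloseN3.psOutN_all`):
the input `S, fixes, hRR, hPS` of lead's `FinalOrd1.torsOrd_of_psOut`.
-/
import Mathlib
import Fermat.Agent.ORD.FAMN.CloseN3

set_option autoImplicit false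
set_option linter.unusedSectionVars false
set_option linter.style.longLine false

namespace Fermat.Agent.ORD.FAMN.CloseMainN3

open AlgebraicCurve Fermat.Agent.X0.FF Fermat.Agent.RR.LSpace Fermat.Agent.MW.EMB.Value6
open Fermat.Agent.ORD.SEMIRED.SemiRedDatum9
open Fermat.Agent.ORD.KERN.KerDefs9 Fermat.Agent.ORD.KERN.KerN9 Fermat.Agent.ORD.KERN.KerGalN9
open Fermat.Agent.ORD.NSN.NSInputN9 Fermat.Agent.ORD.NSN.NSExistsN9
open Fermat.Agent.ORD.INSTN.KapSys7 Fermat.Agent.ORD.INSTN.KapInst7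
open Fermat.Agent.ORD.GLUEN.RationalN7

noncomputable section

variable {L F : Type} {k Ft : Type*} [Field L] [Field F] [Algebra L F] [Field k] [Field Ft]
  [Algebra k Ft]
variable {ι E : Type*} {𝔻 : SemiRedDatum L F k Ft ι E}
variable [IsAlgClosed L] [CharZero L] {x : F} [HasCanonicalDivisor (K := L) (F := F)] [Infinite k]
  [Finite ι] [Nonempty ι] [Finite E]
variable {Γ : Type} [Group Γ] (ρ : Γ →* SemilinearAut L F)

/-- **(R1)**, strong form: a `Γ`-fixed non-special system of `genus L F` centres whose coordinate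
system satisfies the power series contract, for every proof `hRR` of the weak Riemann inequality. -/
theorem exists_admissible_psOutN (hx : IsGen L x) (hlink : DLink 𝔻)
    (hns : ∀ I : NSInputN 𝔻 (genus L F), I.IsNonSpecial)
    (triv : ∀ (γ : Γ) (P : Place L F), 𝔻.r (ρ γ • P) = 𝔻.r P)
    (Bad : Set (ι × Place k Ft)) (hBad : Bad.Finite)
    (hunif : ∀ (v : ι) (Q : Place k Ft), 𝔻.IsSm v Q → (v, Q) ∉ Bad →
      ∃ u : 𝔻.G v, 𝔻.PoleFree (u : F) v Q ∧ Q.ord (𝔻.red v u) = 1 ∧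
        ∀ γ : Γ, ρ γ • (u : F) = (u : F))
    (hrank : ∀ w : 𝔻.B.A, w ≠ 0 → ∀ c : 𝔻.B.A, ¬ IsUnit c → ∃ n : ℕ, c ^ n ∈ Ideal.span {w}) :
    ∃ S : NSSystemN 𝔻 (genus L F), (∀ γ : Γ, FixesN S (ρ γ)) ∧
      ∀ hRR : (∀ E' : Divisor L F, Divisor.degree E' = (genus L F : ℤ) →
        ∃ f : F, f ≠ 0 ∧ ∀ P, -(E' P) ≤ P.ord f), PSOutN (kapSys S hRR) := by
  obtain ⟨S, hS⟩ :=
    Fermat.Agent.ORD.INSTN.MainN7.exists_admissible ρ hx hlink hns triv Bad hBad hunif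
  exact ⟨S, hS, fun hRR => CloseN3.psOutN_all hx hlink hns hrank hRR S⟩

/-- **(R1)** in the exact shape of T/iface/ORD-FINAL: `∃ g S hRR, fixes ∧ PSOutN (kapSys S hRR)`. -/
theorem exists_system_psOutN (hx : IsGen L x) (hlink : DLink 𝔻)
    (hns : ∀ I : NSInputN 𝔻 (genus L F), I.IsNonSpecial)
    (triv : ∀ (γ : Γ) (P : Place L F), 𝔻.r (ρ γ • P) = 𝔻.r P)
    (Bad : Set (ι × Place k Ft)) (hBad : Bad.Finite)
    (hunif : ∀ (v : ι) (Q : Place k Ft), 𝔻.IsSm v Q → (v, Q) ∉ Bad →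
      ∃ u : 𝔻.G v, 𝔻.PoleFree (u : F) v Q ∧ Q.ord (𝔻.red v u) = 1 ∧
        ∀ γ : Γ, ρ γ • (u : F) = (u : F))
    (hrank : ∀ w : 𝔻.B.A, w ≠ 0 → ∀ c : 𝔻.B.A, ¬ IsUnit c → ∃ n : ℕ, c ^ n ∈ Ideal.span {w}) :
    ∃ (g : ℕ) (S : NSSystemN 𝔻 g)
      (hRR : ∀ E' : Divisor L F, Divisor.degree E' = (g : ℤ) →
        ∃ f : F, f ≠ 0 ∧ ∀ P, -(E' P) ≤ P.ord f),
      (∀ γ : Γ, FixesN S (ρ γ)) ∧ PSOutN (kapSys S hRR) := by
  obtain ⟨S, hS, hPS⟩ := exists_admissible_psOutN ρ hx hlink hns triv Bad hBad hunif hrank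
  exact ⟨genus L F, S, Fermat.Agent.FF.FAM.ChainGen4.hRR_genus hx, hS, hPS _⟩

end

end Fermat.Agent.ORD.FAMN.CloseMainN3
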