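/-
PROGRAMME ORD (S33), chapter FAMN (helper3): **the polar family in `StepPreN` form** — the port of
`FF/FAM/PolarStep4`: for condition centres `C : CondFamN 𝔻 α` and a residual non-special system `S` with
all discs distinct and `l(C.D0 + S.D0) ≥ |α| + 1` (Riemann's inequality), there are everywhere integral
`b j ∈ L(C.D0 + S.D0)` such that the polar matrix of helper6's `BridgeExactN6.StepPreN`
`⟨C, S, disj, b, _, _⟩` has unit determinant.
-/
import Mathlib
import Fermat.Agent.ORD.FAMN.PolarOrthN3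
import Fermat.Agent.ORD.FAMN.BridgeExactN6

set_option autoImplicit false
set_option linter.unusedSectionVars false
set_option linter.style.longLine false

namespace Fermat.Agent.ORD.FAMN.PolarStepN3

open AlgebraicCurve Fermat.Agent.X0.FF Fermat.Agent.RR.LSpace Fermat.Agent.MW.EMB.Value6
open Fermat.Agent.ORD.SEMIRED.SemiRedDatum9 Fermat.Agent.ORD.KERN.KerDefs9
open Fermat.Agent.ORD.FAMN.CondN3 Fermat.Agent.ORD.FAMN.PolarN3 Fermat.Agent.ORD.FAMN.BridgeExactN6

noncomputable section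

variable {L F k Ft : Type*} [Field L] [Field F] [Algebra L F] [Field k] [Field Ft] [Algebra k Ft]
variable {ι E : Type*} {𝔻 : SemiRedDatum L F k Ft ι E}
variable {α : Type*} [Fintype α] [DecidableEq α] {g : ℕ}

/-- **(R3) in `StepPreN` form.** -/
theorem exists_b [Infinite k] [Finite ι] [Nonempty ι] [Finite E] (C : CondFamN 𝔻 α)
    (S : NSSystemN 𝔻 g) (disj : ∀ a i, (C.c a, C.Q a) ≠ (S.c i, S.Q i))
    (hl : Fintype.card α + 1 ≤ Module.finrank L (riemannRochSpace (C.D0 + S.D0))) :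
    ∃ (b : α → F) (hG : ∀ j v, b j ∈ 𝔻.G v) (hL : ∀ j, b j ∈ riemannRochSpace (C.D0 + S.D0)),
      IsUnit (StepPreN.polar ⟨C, S, disj, b, hG, hL⟩).det := by
  obtain ⟨b, hb, M, _, hM, hMv⟩ := PolarOrthN3.exists_polar_family S C disj hl
  refine ⟨fun j => ((b j : 𝔻.Gall) : F), fun j v => 𝔻.mem_Gall.mp (b j).2 v, hb, ?_⟩
  have : StepPreN.polar ⟨C, S, disj, fun j => ((b j : 𝔻.Gall) : F),
      fun j v => 𝔻.mem_Gall.mp (b j).2 v, hb⟩ = M := by
    ext a j
    rw [hMv a j]
    rfl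
  rw [this]
  exact hM

/-- **(R3)**: a `StepPreN` with the given centres and residual system and unit polar determinant. -/
theorem exists_stepPreN [Infinite k] [Finite ι] [Nonempty ι] [Finite E] (C : CondFamN 𝔻 α)
    (S : NSSystemN 𝔻 g) (disj : ∀ a i, (C.c a, C.Q a) ≠ (S.c i, S.Q i))
    (hl : Fintype.card α + 1 ≤ Module.finrank L (riemannRochSpace (C.D0 + S.D0))) :
    ∃ X : StepPreN 𝔻 α g, X.C = C ∧ X.S = S ∧ IsUnit X.polar.det := by
  obtain ⟨b, hG, hL, h⟩ := exists_b C S disj hl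
  exact ⟨⟨C, S, disj, b, hG, hL⟩, rfl, rfl, h⟩

/-- the dimension hypothesis from Riemann's inequality (genus form). -/
theorem card_add_one_le (C : CondFamN 𝔻 α) (S : NSSystemN 𝔻 g)
    (hRiem : ∀ E' : Divisor L F,
      Divisor.degree E' + 1 - (g : ℤ) ≤ (Module.finrank L (riemannRochSpace E') : ℤ)) :
    Fintype.card α + 1 ≤ Module.finrank L (riemannRochSpace (C.D0 + S.D0)) :=
  card_add_one_le_finrank S C hRiem

/-- **(R3)** from Riemann's inequality. -/
theorem exists_stepPreN_of_riemann [Infinite k] [Finite ι] [Nonempty ι] [Finite E]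
    (C : CondFamN 𝔻 α) (S : NSSystemN 𝔻 g)
    (disj : ∀ a i, (C.c a, C.Q a) ≠ (S.c i, S.Q i))
    (hRiem : ∀ E' : Divisor L F,
      Divisor.degree E' + 1 - (g : ℤ) ≤ (Module.finrank L (riemannRochSpace E') : ℤ)) :
    ∃ X : StepPreN 𝔻 α g, X.C = C ∧ X.S = S ∧ IsUnit X.polar.det :=
  exists_stepPreN C S disj (card_add_one_le C S hRiem)

/-- Riemann's inequality in the genus form implies the weak form `hRR` used by KERN. -/
theorem hRR_of_riemann (HL : LHyp L F)
    (hRiem : ∀ E' : Divisor L F,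
      Divisor.degree E' + 1 - (g : ℤ) ≤ (Module.finrank L (riemannRochSpace E') : ℤ)) :
    ∀ E' : Divisor L F, Divisor.degree E' = g → ∃ f : F, f ≠ 0 ∧ ∀ P, -(E' P) ≤ P.ord f := by
  intro E' hE
  have h := hRiem E'
  rw [hE] at h
  have hpos : 0 < Module.finrank L (riemannRochSpace E') := by omega
  have := finiteDimensional_L HL E'
  obtain ⟨f, hf⟩ := Module.finrank_pos_iff_exists_ne_zero.mp hpos
  have hf0 : (f : F) ≠ 0 := fun h0 => hf (Subtype.ext h0)
  exact ⟨f, hf0, (mem_L_iff hf0).mp f.2⟩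

end

end Fermat.Agent.ORD.FAMN.PolarStepN3
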